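import Mathlib
import Fermat.Prelude.Def_GaloisRep_LocalConditions
import Fermat.Agent.TOR.AdicMaster

/-!
# CAR / W : wiring of S36.  Definitions (no sorry).

`NotUnipAt p q O al` : the contract which the geometric part (Theorem C + norms) has to deliver for each
prime `q` with `q² ‖ M`: a `KSys` through whose Hecke ring the eigensystem `al` factors, together with a
Galois stable subgroup `𝒲` of its Kummer classes containing all `κ m x`, whose inertia invariants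
(at every place over `q`) are killed by a fixed integer `c ≠ 0`.
-/

set_option autoImplicit false

namespace Fermat.Agent.CAR.W

open Fermat.Agent.GR.Adic Fermat.Agent.TOR IsLocalRing Module Polynomial

local notation "Qbar'" => AlgebraicClosure ℚ

/-- **The contract for S36 at a prime `q`.**  `al ℓ ∈ O` are the Hecke eigenvalues (only the values at
primes outside `bad` matter). -/
def NotUnipAt (p q : ℕ) (O : Type) [CommRing O] (al : ℕ → O) : Prop :=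
  ∃ (bad : Finset ℕ) (K : KSys p (↑bad : Set ℕ)) (𝕋 : Type) (_ : CommRing 𝕋)
    (ι : 𝕋 →+* Module.End ℤ K.L0) (τ : ℕ → 𝕋) (ψ : 𝕋 →+* O) (c : ℕ) (𝒲 : AddSubgroup K.W),
    p ∈ bad ∧ (∀ ℓ : ℕ, ℓ.Prime → ℓ ∉ bad → ι (τ ℓ) = K.T0 ℓ) ∧
    (∀ t : 𝕋, ι t = 0 → ψ t = 0) ∧
    (∀ ℓ : ℕ, ℓ.Prime → ℓ ∉ bad → ψ (τ ℓ) = al ℓ) ∧
    c ≠ 0 ∧ (∀ (m : ℕ) (x : K.L0), K.κ m x ∈ 𝒲) ∧ (∀ (g : GQ), ∀ w ∈ 𝒲, K.act g w ∈ 𝒲) ∧
    ∀ A : ValuationSubring Qbar', A.LiesOverPrime q → ∀ w ∈ 𝒲,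
      (∀ σ ∈ A.inertiaSubgroupIn ℚ, K.act σ w = w) → c • w = 0

/-- **The abstract core of the wiring** (statement; proved in `CAR/W/Core.lean`). -/
def CoreStatement : Prop :=
  ∀ {p : ℕ} (_ : p.Prime) (_ : p ≠ 2) {bad : Finset ℕ} (_ : p ∈ bad) (K : KSys p (↑bad : Set ℕ))
    {𝕋 : Type} [CommRing 𝕋] (ι : 𝕋 →+* Module.End ℤ K.L0) (τ : ℕ → 𝕋)
    (_ : ∀ ℓ : ℕ, ℓ.Prime → ℓ ∉ bad → ι (τ ℓ) = K.T0 ℓ)
    {R : Type} [CommRing R] [IsDomain R] [CharZero R] [IsLocalRing R]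
    [IsAdicComplete (maximalIdeal R) R] (_ : (p : R) ∈ maximalIdeal R)
    (ψ : 𝕋 →+* R) (_ : ∀ t : 𝕋, ι t = 0 → ψ t = 0) (ρ : GaloisRepAdic R)
    (_ : ∀ ℓ : ℕ, ℓ.Prime → ℓ ∉ bad → ∀ A : ValuationSubring Qbar', A.LiesOverPrime ℓ →
      ∀ σ : GQ, A.IsFrobeniusAt σ ℓ →
        LinearMap.charpoly (ρ.ρ σ) = X ^ 2 - C (ψ (τ ℓ)) * X + C (ℓ : R))
    {q : ℕ} (_ : q.Prime) (_ : q ≠ p) (A : ValuationSubring Qbar') (_ : A.LiesOverPrime q)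
    (c : ℕ) (_ : c ≠ 0) (𝒲 : AddSubgroup K.W) (_ : ∀ (m : ℕ) (x : K.L0), K.κ m x ∈ 𝒲)
    (_ : ∀ (g : GQ), ∀ w ∈ 𝒲, K.act g w ∈ 𝒲)
    (_ : ∀ w ∈ 𝒲, (∀ σ ∈ A.inertiaSubgroupIn ℚ, K.act σ w = w) → c • w = 0),
    ¬ ∀ σ ∈ A.inertiaSubgroupIn ℚ, LinearMap.charpoly (ρ.ρ σ) = (X - 1) ^ 2

end Fermat.Agent.CAR.W
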