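import Mathlib
import Fermat.Agent.CAR.W.Defs
import Fermat.Agent.TOR.S35Asm

/-!
# CAR / W : the contract `NotUnipAt` from an analytic family and a Galois stable group `𝒩` of units

`notUnipAt_of_period`    : abstract period homomorphism `P` (copy of `TOR.steinbergAtQ_of_period`).
`notUnipAt_of_eigenform` : `P = periodMap M (levelUp g)`.

`𝒩 : Subgroup UU` is the group of the units "both of whose norms to level `M / q` are trivial"; what is needed: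
* `𝒩` is stable under `galU`;
* the representatives `torPsiRep` of the classes attached to the dual period lattice lie in `𝒩`;
* (Theorem C) a unit `u ∈ 𝒩 ⊓ VV 𝒜` whose class is fixed by the inertia group at `A ∣ q` satisfies
  `u ^ c0 ∈ FLU M`.
-/

set_option autoImplicit false

open ModularCurve AlgebraicCurve CongruenceSubgroup ModularCurve.Period ModularFormClass
open Fermat.Agent.GAL Fermat.Agent.GAL.HK Fermat.Agent.GR.CB Fermat.Agent.TOR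
open scoped MatrixGroups

noncomputable section

namespace Fermat.Agent.CAR.W

local notation "Qbar'" => AlgebraicClosure ℚ

/-- the classes of the elements of `𝒩 ⊓ VV 𝒜`. -/
def clsGrp {M p : ℕ} (𝒜 : AnFamily M p) (𝒩 : Subgroup UU) : AddSubgroup (SS 𝒜) where
  carrier := {x | ∃ u ∈ 𝒩, u ∈ VV 𝒜 ∧ cls M u = (x : AA M)}
  zero_mem' := ⟨1, one_mem _, one_mem _, rfl⟩
  add_mem' := by
    rintro a b ⟨u, hu1, hu2, hu3⟩ ⟨v, hv1, hv2, hv3⟩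
    exact ⟨u * v, mul_mem hu1 hv1, mul_mem hu2 hv2, by
      rw [cls_mul, hu3, hv3, Submodule.coe_add]⟩
  neg_mem' := by
    rintro a ⟨u, hu1, hu2, hu3⟩
    exact ⟨u⁻¹, inv_mem hu1, inv_mem hu2, by rw [cls_inv, hu3, Submodule.coe_neg]⟩

theorem mem_clsGrp {M p : ℕ} {𝒜 : AnFamily M p} {𝒩 : Subgroup UU} {x : SS 𝒜} :
    x ∈ clsGrp 𝒜 𝒩 ↔ ∃ u ∈ 𝒩, u ∈ VV 𝒜 ∧ cls M u = (x : AA M) := Iff.rfl

/-- **Assembly of the contract `NotUnipAt`.** -/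
theorem notUnipAt_of_period {M p q : ℕ} [NeZero M] (hp : p.Prime)
    (𝒜 : AnFamily M p) (hes : EsElt 𝒜)
    (P : Additive (Gamma0 M) →+ ℂ) (hPpar : IsParabolicHom (Gamma0 M) P) (hP0 : P ≠ 0)
    (c : ℕ → ℂ) (hPT : ∀ ℓ : ℕ, ℓ.Prime → ¬ ℓ ∣ M → heckeCoh M ℓ P = c ℓ • P)
    (Rg : Subring ℂ) {O : Type} [CommRing O] (iota : Rg →+* O) (al : ℕ → O) (B : Finset ℕ)
    (hal : ∀ ℓ : ℕ, ℓ.Prime → ℓ ∉ B → ∃ h : c ℓ ∈ Rg, iota ⟨c ℓ, h⟩ = al ℓ)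
    (𝒩 : Subgroup UU) (h𝒩gal : ∀ σ : GAL.GQ, ∀ u ∈ 𝒩, galU σ u ∈ 𝒩)
    (h𝒩rep : ∀ (m : ℕ) (f : Module.Dual ℤ (perGrp P)),
      (torPsiRep 𝒜 m (redL M (p ^ m) (perEmbL P hPpar f)) : UU) ∈ 𝒩)
    (c0 : ℕ) (hc0 : c0 ≠ 0)
    (hC : ∀ A : ValuationSubring Qb, A.LiesOverPrime q → ∀ u ∈ 𝒩, u ∈ VV 𝒜 →
      (∀ σ ∈ A.inertiaSubgroupIn ℚ, galU σ u * u⁻¹ ∈ FLU M) → u ^ c0 ∈ FLU M) :
    NotUnipAt p q O al := by
  classical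
  have hfg : Group.FG (Gamma0 M) := tor_fg_Gamma0 M
  have hMp : M * p ≠ 0 := Nat.mul_ne_zero (NeZero.ne M) hp.ne_zero
  set bad : Finset ℕ := B ∪ (M * p).primeFactors with hbaddef
  have hbad : ∀ ℓ : ℕ, ℓ.Prime → ℓ ∉ (↑bad : Set ℕ) → ¬ ℓ ∣ M * p := by
    intro ℓ hℓ hmem hd
    apply hmem
    rw [hbaddef]
    simp only [Finset.coe_union, Set.mem_union]
    exact Or.inr (by simpa using Nat.mem_primeFactors.2 ⟨hℓ, hd, hMp⟩)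
  have hbadM : ∀ ℓ : ℕ, ℓ.Prime → ℓ ∉ bad → ¬ ℓ ∣ M := fun ℓ hℓ hmem hd =>
    hbad ℓ hℓ (by simpa using hmem) (Dvd.dvd.mul_right hd p)
  have hbadB : ∀ ℓ : ℕ, ℓ ∉ bad → ℓ ∉ B := fun ℓ hmem h' =>
    hmem (Finset.mem_union_left _ h')
  -- the ring
  let 𝕋 : Subring ℂ := perStab P ⊓ Rg
  let ι : 𝕋 →+* Module.End ℤ (Module.Dual ℤ (perGrp P)) :=
    (perIota P).comp (Subring.inclusion (inf_le_left : perStab P ⊓ Rg ≤ perStab P))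
  let ψ : 𝕋 →+* O := iota.comp (Subring.inclusion (inf_le_right : perStab P ⊓ Rg ≤ Rg))
  let τ : ℕ → 𝕋 := fun ℓ => if h : c ℓ ∈ perStab P ⊓ Rg then ⟨c ℓ, h⟩ else 0
  have hstab : ∀ ℓ : ℕ, ℓ.Prime → ¬ ℓ ∣ M → c ℓ ∈ perStab P := by
    intro ℓ hℓ hℓM
    apply mem_perStab_of_datum P (heckeDatum hℓ hℓM)
    rw [← heckeCoh_eq_T hℓ hℓM]
    exact hPT ℓ hℓ hℓM
  have hτ : ∀ (ℓ : ℕ) (hℓ : ℓ.Prime) (hmem : ℓ ∉ bad),
      ∃ h : c ℓ ∈ perStab P ⊓ Rg, τ ℓ = ⟨c ℓ, h⟩ := by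
    intro ℓ hℓ hmem
    obtain ⟨h2, -⟩ := hal ℓ hℓ (hbadB ℓ hmem)
    have h : c ℓ ∈ perStab P ⊓ Rg := ⟨hstab ℓ hℓ (hbadM ℓ hℓ hmem), h2⟩
    exact ⟨h, dif_pos h⟩
  let K : KSys p (↑bad : Set ℕ) :=
    cbKSys hp 𝒜 hes _ hbad (Module.Dual ℤ (perGrp P)) (fun ℓ => ι (τ ℓ)) (perEmbL P hPpar)
      (fun n x y h => exists_eq_smul_of_perEmb P n x (y : Additive (Gamma0 M) →+ ℤ) (by
        have := congrArg (Subtype.val) h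
        exact this))
      (fun ℓ hℓ hb x => by
        have hmem : ℓ ∉ bad := by simpa using hb
        have hℓM := hbadM ℓ hℓ hmem
        obtain ⟨h, hτℓ⟩ := hτ ℓ hℓ hmem
        rw [coe_perEmbL, coe_perEmbL, heckeCoh_eq_T hℓ hℓM,
          datum_perEmb P (heckeDatum hℓ hℓM) ⟨c ℓ, h.1⟩
            (by rw [← heckeCoh_eq_T hℓ hℓM]; exact hPT ℓ hℓ hℓM), hτℓ]
        rfl)
  have hκ : ∀ (m : ℕ) (f : Module.Dual ℤ (perGrp P)),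
      kappaS 𝒜 m (perEmbL P hPpar f) ∈ clsGrp 𝒜 𝒩 := by
    intro m f
    refine ⟨_, h𝒩rep m f, ?_, ?_⟩
    · exact Subgroup.subset_closure ⟨1, m, _,
        (torPsiRep 𝒜 m (redL M (p ^ m) (perEmbL P hPpar f))).2, (GR.CB.galU_one _).symm⟩
    · rw [coe_kappaS, psi_eq_cls_torPsiRep]
  have hG : ∀ (g : GAL.GQ) (w : SS 𝒜), w ∈ clsGrp 𝒜 𝒩 → actS 𝒜 g w ∈ clsGrp 𝒜 𝒩 := by
    rintro g w ⟨u, hu1, hu2, hu3⟩
    refine ⟨galU g u, h𝒩gal g u hu1, galU_mem_VV 𝒜 g hu2, ?_⟩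
    rw [coe_actS, ← hu3, gA_cls]
  have hI : ∀ A : ValuationSubring Qb, A.LiesOverPrime q → ∀ w : SS 𝒜, w ∈ clsGrp 𝒜 𝒩 →
      (∀ σ ∈ A.inertiaSubgroupIn ℚ, actS 𝒜 σ w = w) → c0 • w = 0 := by
    rintro A hA w ⟨u, hu1, hu2, hu3⟩ hinv
    apply Subtype.ext
    rw [Submodule.coe_smul_of_tower, ← hu3, ← cls_pow, Submodule.coe_zero, cls_eq_zero_iff]
    refine hC A hA u hu1 hu2 fun σ hσ => ?_
    have h2 : gA M σ (w : AA M) = (w : AA M) := congrArg (Subtype.val) (hinv σ hσ)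
    rw [← hu3, gA_cls] at h2
    rw [← cls_eq_zero_iff, cls_mul, cls_inv, h2, add_neg_cancel]
  refine ⟨bad, K, 𝕋, inferInstance, ι, τ, ψ, c0, clsGrp 𝒜 𝒩, ?_, fun _ _ _ => rfl, ?_, ?_, hc0,
    hκ, hG, hI⟩
  · exact Finset.mem_union_right _ (Nat.mem_primeFactors.2 ⟨hp, Dvd.intro_left M rfl, hMp⟩)
  · intro t ht
    have h1 := eq_zero_of_perIota_eq_zero P hP0 _ ht
    have h2 : t = 0 := Subring.inclusion_injective _ (h1.trans (map_zero _).symm)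
    rw [h2, map_zero]
  · intro ℓ hℓ hmem
    obtain ⟨h, hτℓ⟩ := hτ ℓ hℓ hmem
    obtain ⟨h2, h3⟩ := hal ℓ hℓ (hbadB ℓ hmem)
    rw [hτℓ, ← h3]
    rfl

/-- The contract `NotUnipAt` for a normalized eigenform `g` of level `N ∣ M`. -/
theorem notUnipAt_of_eigenform {N M p q : ℕ} [NeZero M] (hNM : N ∣ M)
    {g : CuspForm (Gamma0 N) 2} (hg : g.IsNormalizedEigenform) (hp : p.Prime)
    (𝒜 : AnFamily M p) (hes : EsElt 𝒜)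
    (Rg : Subring ℂ) {O : Type} [CommRing O] (iota : Rg →+* O) (al : ℕ → O) (B : Finset ℕ)
    (hal : ∀ ℓ : ℕ, ℓ.Prime → ℓ ∉ B → ∃ h : qCoeff g ℓ ∈ Rg, iota ⟨qCoeff g ℓ, h⟩ = al ℓ)
    (𝒩 : Subgroup UU) (h𝒩gal : ∀ σ : GAL.GQ, ∀ u ∈ 𝒩, galU σ u ∈ 𝒩)
    (h𝒩rep : ∀ (m : ℕ) (f : Module.Dual ℤ (perGrp (periodMap M (levelUp hNM g)))),
      (torPsiRep 𝒜 m (redL M (p ^ m) (perEmbL (periodMap M (levelUp hNM g))
        (S21.periodMap_mem_parabolicHoms _) f)) : UU) ∈ 𝒩)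
    (c0 : ℕ) (hc0 : c0 ≠ 0)
    (hC : ∀ A : ValuationSubring Qb, A.LiesOverPrime q → ∀ u ∈ 𝒩, u ∈ VV 𝒜 →
      (∀ σ ∈ A.inertiaSubgroupIn ℚ, galU σ u * u⁻¹ ∈ FLU M) → u ^ c0 ∈ FLU M) :
    NotUnipAt p q O al := by
  refine notUnipAt_of_period hp 𝒜 hes
    (periodMap M (levelUp hNM g)) (S21.periodMap_mem_parabolicHoms _)
    (periodMap_levelUp_ne_zero hNM hg) (fun ℓ => qCoeff g ℓ) ?_ Rg iota al B hal 𝒩 h𝒩gal h𝒩rep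
    c0 hc0 hC
  intro ℓ hℓ hℓM
  rw [heckeCoh_eq_cohT M hℓ hℓM, ← periodMap_heckeTLin, heckeTLin_levelUp hNM hg hℓ hℓM,
    S21.periodMap_smul]

end Fermat.Agent.CAR.W
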