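import Mathlib
import Fermat.Agent.CAR.W.Inst
import Fermat.Agent.CAR.FQ2E.Gal
import Fermat.Agent.TOR.GoalBFree

/-!
# CAR / W : the statement of Theorem C and the group `normGrp` of units with trivial norms

Level `M' * q * q`, `q ∤ M'`.
* `N1Triv M' q n u` : `u ^ n = z ∈ F = FN (M' q²)` and `N1 z` is an `n`-th power in `F1 = FN (M' q)`.
* `ThmC M' q c0`    : **the contract with the geometric part of CAR**.
* `normGrp M' q p`  : the units `u` with `U_q u ∈ F` and `N1Triv` for some exponent `p ^ m`.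
* `normGrp_galU`, `pow_mem_of_thmC` : the hypotheses `h𝒩gal`, `hC` of `notUnipAt_of_eigenform`.
-/

set_option autoImplicit false

open ModularCurve AlgebraicCurve CongruenceSubgroup
open Fermat.Agent.GAL Fermat.Agent.GR.CB Fermat.Agent.TOR Fermat.Agent.S24 Fermat.Agent.TOR.GB
open Fermat.Agent.GR.HeckeField

noncomputable section

namespace Fermat.Agent.CAR.W

variable (M' q : ℕ) [NeZero M'] [NeZero q]

/-- `u ^ n` lies in `F` and its norm along `π₁` is an `n`-th power in `F1`. -/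
def N1Triv (n : ℕ) (u : UU) : Prop :=
  ∃ (z : FN (M' * q * q)) (y : FN (M' * q)),
    (z : LaurentSeries Qb) = (u : LaurentSeries Qb) ^ n ∧ FQ2E.N1 M' q z = y ^ n

/-- **THEOREM C** (contract with the geometric part of CAR).  `M = M' q²`, `q ∤ M'`, `M'` admissible.  An
everywhere unramified Kummer element `u` of exponent `n` prime to `q`, both of whose norms to level `M' q` are
trivial and whose class is fixed by the inertia group at a place `A ∣ q`, satisfies `u ^ c0 ∈ F`. -/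
def ThmC (c0 : ℕ) : Prop :=
  ∀ n : ℕ, n ≠ 0 → ¬ q ∣ n → ∀ u : UU, IsKum Qb (M' * q * q) n (u : LaurentSeries Qb) →
    nmU q u ∈ FLU (M' * q * q) → N1Triv M' q n u →
    ∀ A : ValuationSubring Qb, A.LiesOverPrime q →
      (∀ σ ∈ A.inertiaSubgroupIn ℚ, galU σ u * u⁻¹ ∈ FLU (M' * q * q)) →
      u ^ c0 ∈ FLU (M' * q * q)

variable {M' q}

theorem N1Triv.of_dvd {n n' : ℕ} (h : n ∣ n') {u : UU} (hu : N1Triv M' q n u) :
    N1Triv M' q n' u := by
  obtain ⟨k, rfl⟩ := h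
  obtain ⟨z, y, hz, hy⟩ := hu
  refine ⟨z ^ k, y, ?_, ?_⟩
  · rw [pow_mul, ← hz]
    rfl
  · rw [map_pow, hy, pow_mul]

theorem N1Triv.mul {n : ℕ} {u v : UU} (hu : N1Triv M' q n u) (hv : N1Triv M' q n v) :
    N1Triv M' q n (u * v) := by
  obtain ⟨z, y, hz, hy⟩ := hu
  obtain ⟨z', y', hz', hy'⟩ := hv
  refine ⟨z * z', y * y', ?_, ?_⟩
  · rw [Units.val_mul, mul_pow, ← hz, ← hz']
    rfl
  · rw [map_mul, hy, hy', mul_pow]

theorem N1Triv.inv {n : ℕ} {u : UU} (hu : N1Triv M' q n u) : N1Triv M' q n u⁻¹ := by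
  obtain ⟨z, y, hz, hy⟩ := hu
  refine ⟨z⁻¹, y⁻¹, ?_, ?_⟩
  · rw [Units.val_inv_eq_inv_val, inv_pow, ← hz]
    rfl
  · have hz0 : z ≠ 0 := by
      rintro rfl
      exact (pow_ne_zero n u.ne_zero) hz.symm
    have h1 : FQ2E.N1 M' q z * FQ2E.N1 M' q z⁻¹ = 1 := by
      rw [← map_mul, mul_inv_cancel₀ hz0, map_one]
    rw [eq_inv_of_mul_eq_one_right h1, hy, inv_pow]

theorem N1Triv.one (n : ℕ) : N1Triv M' q n 1 :=
  ⟨1, 1, by rw [Units.val_one, one_pow]; rfl, by rw [map_one, one_pow]⟩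

theorem N1Triv.galU (hq : q.Prime) (hqM : ¬ q ∣ M') {n : ℕ} {u : UU} (hu : N1Triv M' q n u)
    (σ : GAL.GQ) : N1Triv M' q n (galU σ u) := by
  obtain ⟨z, y, hz, hy⟩ := hu
  refine ⟨galF (M' * q * q) σ z, galF (M' * q) σ y, ?_, ?_⟩
  · rw [coe_galF, hz, map_pow, coe_galU]
  · rw [FQ2E.N1_galF hq hqM, hy, map_pow]

variable (M' q)

/-- the units both of whose norms to level `M' q` are trivial (exponents `p ^ m`). -/
def normGrp (p : ℕ) : Subgroup UU where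
  carrier := {u | nmU q u ∈ FLU (M' * q * q) ∧ ∃ m : ℕ, N1Triv M' q (p ^ m) u}
  one_mem' := ⟨by rw [map_one]; exact one_mem _, 0, N1Triv.one _⟩
  mul_mem' := by
    rintro u v ⟨hu, m, hm⟩ ⟨hv, m', hm'⟩
    refine ⟨by rw [map_mul]; exact mul_mem hu hv, max m m', ?_⟩
    exact (hm.of_dvd (pow_dvd_pow p (le_max_left m m'))).mul
      (hm'.of_dvd (pow_dvd_pow p (le_max_right m m')))
  inv_mem' := by
    rintro u ⟨hu, m, hm⟩
    exact ⟨by rw [map_inv]; exact inv_mem hu, m, hm.inv⟩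

variable {M' q}

theorem mem_normGrp {p : ℕ} {u : UU} :
    u ∈ normGrp M' q p ↔ nmU q u ∈ FLU (M' * q * q) ∧ ∃ m : ℕ, N1Triv M' q (p ^ m) u := Iff.rfl

theorem galU_mem_FLU {M : ℕ} (σ : GAL.GQ) {u : UU} (hu : u ∈ FLU M) : galU σ u ∈ FLU M := by
  rw [mem_FLU] at hu ⊢
  exact (galF M σ ⟨_, hu⟩).2

/-- `normGrp` is Galois stable. -/
theorem normGrp_galU (hq : q.Prime) (hqM : ¬ q ∣ M') (p : ℕ) (σ : GAL.GQ) (u : UU)
    (hu : u ∈ normGrp M' q p) : galU σ u ∈ normGrp M' q p := by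
  obtain ⟨h1, m, hm⟩ := hu
  exact ⟨by rw [nmU_galU]; exact galU_mem_FLU σ h1, m, hm.galU hq hqM σ⟩

/-- Theorem C in the form used by `notUnipAt_of_eigenform`. -/
theorem pow_mem_of_thmC {p c0 : ℕ} (hp : p.Prime) (hq : q.Prime) (hqp : q ≠ p)
    (hC : ThmC M' q c0) (𝒜 : AnFamily (M' * q * q) p)
    (A : ValuationSubring Qb) (hA : A.LiesOverPrime q) (u : UU) (hu : u ∈ normGrp M' q p)
    (huV : u ∈ VV 𝒜)
    (hinv : ∀ σ ∈ A.inertiaSubgroupIn ℚ, galU σ u * u⁻¹ ∈ FLU (M' * q * q)) :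
    u ^ c0 ∈ FLU (M' * q * q) := by
  obtain ⟨h1, m, hm⟩ := hu
  obtain ⟨m', hm'⟩ := exists_isKum_of_mem_VV 𝒜 huV
  have hqn : ¬ q ∣ p ^ (max m m') := fun h =>
    hqp ((Nat.prime_dvd_prime_iff_eq hq hp).1 (hq.dvd_of_dvd_pow h))
  exact hC (p ^ (max m m')) (pow_ne_zero _ hp.ne_zero) hqn u
    (IsKum.of_dvd (pow_dvd_pow p (le_max_right m m')) hm') h1
    (hm.of_dvd (pow_dvd_pow p (le_max_left m m'))) A hA hinv

/-- descent of `n`-th powers along `π₁` (`q ∤ n`): if `π₁ w = y ^ n` in `F` then `w` is an `n`-th power in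
`F1`. -/
theorem exists_pow_eq_of_alp (hq : q.Prime) (hqM : ¬ q ∣ M') {n : ℕ} (hqn : ¬ q ∣ n)
    (w : FN (M' * q)) (y : FN (M' * q * q)) (h : alp (M' * q) q w = y ^ n) :
    ∃ y' : FN (M' * q), w = y' ^ n := by
  rcases eq_or_ne w 0 with rfl | hw
  · rcases Nat.eq_zero_or_pos n with rfl | hn
    · exact absurd (dvd_zero q) hqn
    · exact ⟨0, (zero_pow hn.ne').symm⟩
  have h1 : w ^ q = (FQ2E.N1 M' q y) ^ n := by
    rw [← FQ2E.N1_alp hq hqM, h, map_pow]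
  have hcop : Nat.Coprime q n := (Nat.Prime.coprime_iff_not_dvd hq).2 hqn
  have hbez : (q : ℤ) * Nat.gcdA q n + (n : ℤ) * Nat.gcdB q n = 1 := by
    have := Nat.gcd_eq_gcd_ab q n
    rw [hcop] at this
    exact_mod_cast this.symm
  refine ⟨(FQ2E.N1 M' q y) ^ (Nat.gcdA q n) * w ^ (Nat.gcdB q n), ?_⟩
  rw [mul_pow, ← zpow_natCast, ← zpow_natCast, ← zpow_mul, ← zpow_mul, mul_comm (Nat.gcdA q n),
    zpow_mul, zpow_natCast, ← h1, ← zpow_natCast, ← zpow_mul, ← zpow_add₀ hw,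
    mul_comm (Nat.gcdB q n), hbez, zpow_one]

end Fermat.Agent.CAR.W
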