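import Mathlib
import Fermat.Agent.CAR.W.ThmC

/-!
# CAR / W / Sym : the symmetric form of Theorem C (both norms `N1 z`, `N2 z` are `n`-th powers in `F1`) implies
the form `ThmC` used by the chain
-/

set_option autoImplicit false

open ModularCurve AlgebraicCurve CongruenceSubgroup
open Fermat.Agent.GAL Fermat.Agent.GR.CB Fermat.Agent.TOR Fermat.Agent.S24 Fermat.Agent.TOR.GB
open Fermat.Agent.GR.HeckeField

noncomputable section

namespace Fermat.Agent.CAR.W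

variable (M' q : ℕ) [NeZero M'] [NeZero q]

/-- `u ^ n = z ∈ F` and both norms of `z` are `n`-th powers in `F1`. -/
def BothTriv (n : ℕ) (u : UU) : Prop :=
  ∃ z : FN (M' * q * q), (z : LaurentSeries Qb) = (u : LaurentSeries Qb) ^ n ∧
    (∃ y : FN (M' * q), y ^ n = FQ2E.N1 M' q z) ∧ (∃ y : FN (M' * q), y ^ n = FQ2E.N2 M' q z)

/-- the symmetric form of Theorem C. -/
def ThmCSym (c0 : ℕ) : Prop :=
  ∀ n : ℕ, n ≠ 0 → ¬ q ∣ n → ∀ u : UU, IsKum Qb (M' * q * q) n (u : LaurentSeries Qb) →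
    BothTriv M' q n u →
    ∀ A : ValuationSubring Qb, A.LiesOverPrime q →
      (∀ σ ∈ A.inertiaSubgroupIn ℚ, galU σ u * u⁻¹ ∈ FLU (M' * q * q)) →
      u ^ c0 ∈ FLU (M' * q * q)

variable {M' q}

/-- `U_q u ∈ F` implies that `N2 (u ^ n)` is an `n`-th power in `F1`. -/
theorem exists_pow_eq_N2 (hq : q.Prime) (hqM : ¬ q ∣ M') {n : ℕ} (hqn : ¬ q ∣ n) {u : UU}
    (hU : nmU q u ∈ FLU (M' * q * q)) (z : FN (M' * q * q))
    (hz : (z : LaurentSeries Qb) = (u : LaurentSeries Qb) ^ n) :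
    ∃ y : FN (M' * q), y ^ n = FQ2E.N2 M' q z := by
  obtain ⟨y, hy⟩ := exists_pow_eq_of_alp hq hqM hqn (FQ2E.N2 M' q z)
    (⟨_, hU⟩ : FN (M' * q * q)) (by
      apply Subtype.ext
      rw [coe_heckeAlphaBar, FQ2E.coe_N2 hq hqM, hz, map_pow]
      rfl)
  exact ⟨y, hy.symm⟩

theorem bothTriv_of (hq : q.Prime) (hqM : ¬ q ∣ M') {n : ℕ} (hqn : ¬ q ∣ n) {u : UU}
    (hU : nmU q u ∈ FLU (M' * q * q)) (h1 : N1Triv M' q n u) : BothTriv M' q n u := by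
  obtain ⟨z, y, hz, hy⟩ := h1
  exact ⟨z, hz, ⟨y, hy.symm⟩, exists_pow_eq_N2 hq hqM hqn hU z hz⟩

theorem thmC_of_sym (hq : q.Prime) (hqM : ¬ q ∣ M') {c0 : ℕ} (h : ThmCSym M' q c0) :
    ThmC M' q c0 :=
  fun n hn hqn u hu hU h1 A hA hinv => h n hn hqn u hu (bothTriv_of hq hqM hqn hU h1) A hA hinv

end Fermat.Agent.CAR.W
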