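import Mathlib

/-!
# CAR / W / CH : modules over the Cayley--Hamilton quotient of an absolutely irreducible
two dimensional representation

`ch_lemma` : let `ρ : G → GL(V)`, `V` free of rank two over `O`, with `span ρ(G) = End V`, `2 ∈ Oˣ`, and
let `s : G → End_O X` satisfy `s(g)² - tr ρ(g) s(g) + det ρ(g) = 0` for all `g`.  Then every linear
relation `∑ c_g ρ(g) = 0` holds for `s` : `∑ c_g s(g) = 0`.
-/

set_option autoImplicit false

namespace Fermat.Agent.CAR.W

open LinearMap

section CH

variable {O V X G : Type*} [CommRing O] [AddCommGroup V] [Module O V]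
  [AddCommGroup X] [Module O X] [Group G]

/-- the graph of the pair `(ρ, s)` on the group algebra. -/
def chP (ρ : G →* Module.End O V) (s : G →* Module.End O X) :
    Submodule O (Module.End O V × Module.End O X) :=
  Submodule.span O (Set.range fun g => (ρ g, s g))

/-- `(a, b) ↦ tr a - b`. -/
noncomputable def chDag : (Module.End O V × Module.End O X) →ₗ[O] Module.End O X :=
  ((LinearMap.toSpanSingleton O (Module.End O X) 1).comp
    ((LinearMap.trace O V).comp (LinearMap.fst O _ _))) - LinearMap.snd O _ _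

theorem chDag_apply (x : Module.End O V × Module.End O X) :
    chDag x = LinearMap.trace O V x.1 • (1 : Module.End O X) - x.2 := rfl

variable (ρ : G →* Module.End O V) (s : G →* Module.End O X)

theorem chP_gen (g : G) : (ρ g, s g) ∈ chP ρ s := Submodule.subset_span ⟨g, rfl⟩

theorem chP_one : (1 : Module.End O V × Module.End O X) ∈ chP ρ s := by
  have := chP_gen ρ s 1
  rwa [map_one, map_one] at this

theorem chP_mul {x y : Module.End O V × Module.End O X} (hx : x ∈ chP ρ s) (hy : y ∈ chP ρ s) :
    x * y ∈ chP ρ s := by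
  induction hx using Submodule.span_induction with
  | mem x hx =>
    obtain ⟨g, rfl⟩ := hx
    induction hy using Submodule.span_induction with
    | mem y hy =>
      obtain ⟨h, rfl⟩ := hy
      have := chP_gen ρ s (g * h)
      rwa [map_mul, map_mul] at this
    | zero => rw [mul_zero]; exact zero_mem _
    | add y₁ y₂ _ _ h₁ h₂ => rw [mul_add]; exact add_mem h₁ h₂
    | smul c y _ h => rw [mul_smul_comm]; exact Submodule.smul_mem _ c h
  | zero => rw [zero_mul]; exact zero_mem _
  | add x₁ x₂ _ _ h₁ h₂ => rw [add_mul]; exact add_mem h₁ h₂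
  | smul c x _ h => rw [smul_mul_assoc]; exact Submodule.smul_mem _ c h

variable {ρ s}

theorem chDag_gen
    (hCH : ∀ g, s g * s g - LinearMap.trace O V (ρ g) • s g + LinearMap.det (ρ g) • 1 = 0) (g : G) :
    chDag (ρ g, s g) = LinearMap.det (ρ g) • s g⁻¹ := by
  have h1 : s g * s g⁻¹ = 1 := by rw [← map_mul, mul_inv_cancel, map_one]
  have h2 := congrArg (· * s g⁻¹) (hCH g)
  simp only [add_mul, sub_mul, mul_assoc, h1, mul_one, smul_mul_assoc, one_mul, zero_mul] at h2
  rw [chDag_apply]
  have h3 : LinearMap.trace O V (ρ g) • (1 : Module.End O X) - s g - LinearMap.det (ρ g) • s g⁻¹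
      = 0 := by
    rw [← neg_eq_zero, ← h2]; abel
  exact sub_eq_zero.mp h3

/-- the involution is anti-multiplicative. -/
theorem chDag_mul
    (hCH : ∀ g, s g * s g - LinearMap.trace O V (ρ g) • s g + LinearMap.det (ρ g) • 1 = 0)
    {x y : Module.End O V × Module.End O X} (hx : x ∈ chP ρ s) (hy : y ∈ chP ρ s) :
    chDag (x * y) = chDag y * chDag x := by
  induction hx using Submodule.span_induction with
  | mem x hx =>
    obtain ⟨g, rfl⟩ := hx
    induction hy using Submodule.span_induction with
    | mem y hy =>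
      obtain ⟨h, rfl⟩ := hy
      have e : ((ρ g, s g) : Module.End O V × Module.End O X) * (ρ h, s h)
          = (ρ (g * h), s (g * h)) := by rw [map_mul, map_mul]; rfl
      rw [e, chDag_gen hCH, chDag_gen hCH, chDag_gen hCH, map_mul, map_mul, mul_inv_rev, map_mul,
        smul_mul_smul_comm, mul_comm (LinearMap.det (ρ g))]
    | zero => simp
    | add y₁ y₂ _ _ h₁ h₂ => rw [mul_add, map_add, map_add, add_mul, h₁, h₂]
    | smul c y _ h => rw [mul_smul_comm, map_smul, map_smul, smul_mul_assoc, h]
  | zero => simp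
  | add x₁ x₂ _ _ h₁ h₂ => rw [add_mul, map_add, map_add, mul_add, h₁, h₂]
  | smul c x _ h => rw [smul_mul_assoc, map_smul, map_smul, mul_smul_comm, h]

/-- elements of the graph over `0` intertwine `h` and `h†`. -/
theorem ch_intertwine
    (hCH : ∀ g, s g * s g - LinearMap.trace O V (ρ g) • s g + LinearMap.det (ρ g) • 1 = 0)
    {y : Module.End O X} (hy : ((0 : Module.End O V), y) ∈ chP ρ s)
    {x : Module.End O V × Module.End O X} (hx : x ∈ chP ρ s) :
    y * x.2 = chDag x * y := by
  have h := chDag_mul hCH hy hx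
  rw [chDag_apply, chDag_apply (0, y)] at h
  simp only [Prod.fst_mul, Prod.snd_mul, zero_mul, map_zero, zero_smul, zero_sub, mul_neg,
    neg_inj] at h
  exact h

theorem ch_comm
    (hCH : ∀ g, s g * s g - LinearMap.trace O V (ρ g) • s g + LinearMap.det (ρ g) • 1 = 0)
    {y : Module.End O X} (hy : ((0 : Module.End O V), y) ∈ chP ρ s)
    {x x' : Module.End O V × Module.End O X} (hx : x ∈ chP ρ s) (hx' : x' ∈ chP ρ s) :
    y * (x.2 * x'.2) = y * (x'.2 * x.2) := by
  have h1 := ch_intertwine hCH hy (chP_mul ρ s hx hx')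
  rw [chDag_mul hCH hx hx', Prod.snd_mul] at h1
  rw [h1, mul_assoc, ← ch_intertwine hCH hy hx, ← mul_assoc, ← ch_intertwine hCH hy hx', mul_assoc]

theorem exists_mem_chP (hspan : Submodule.span O (Set.range ρ) = ⊤) (a : Module.End O V) :
    ∃ h : Module.End O X, (a, h) ∈ chP ρ s := by
  have ha : a ∈ Submodule.span O (Set.range ρ) := by rw [hspan]; trivial
  induction ha using Submodule.span_induction with
  | mem a ha => obtain ⟨g, rfl⟩ := ha; exact ⟨s g, chP_gen ρ s g⟩
  | zero => exact ⟨0, zero_mem _⟩
  | add a₁ a₂ _ _ h₁ h₂ =>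
    obtain ⟨b₁, h₁⟩ := h₁
    obtain ⟨b₂, h₂⟩ := h₂
    exact ⟨b₁ + b₂, add_mem h₁ h₂⟩
  | smul c a _ h =>
    obtain ⟨b, h⟩ := h
    exact ⟨c • b, Submodule.smul_mem _ c h⟩

/-- in `End V`, `V` free of rank two, there are `a`, `a'` with `[a, a']² = 1`. -/
theorem exists_comm_sq_eq_one [Module.Free O V] [Module.Finite O V]
    (h2 : Module.finrank O V = 2) :
    ∃ a a' : Module.End O V, (a * a' - a' * a) * (a * a' - a' * a) = 1 := by
  classical
  rcases subsingleton_or_nontrivial O with hO | hO
  · have : Subsingleton V := Module.subsingleton O V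
    exact ⟨0, 0, Subsingleton.elim _ _⟩
  let b := Module.finBasisOfFinrankEq O V h2
  let e := LinearMap.toMatrixAlgEquiv b
  refine ⟨e.symm !![0, 1; 0, 0], e.symm !![0, 0; 1, 0], ?_⟩
  apply e.injective
  simp only [map_mul, map_sub, AlgEquiv.apply_symm_apply, map_one]
  ext i j
  fin_cases i <;> fin_cases j <;> simp [Matrix.mul_apply, Fin.sum_univ_two]

/-- **the key lemma**: the graph is the graph of a function. -/
theorem ch_eq_zero [Module.Free O V] [Module.Finite O V] (h2 : Module.finrank O V = 2)
    (hCH : ∀ g, s g * s g - LinearMap.trace O V (ρ g) • s g + LinearMap.det (ρ g) • 1 = 0)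
    (hspan : Submodule.span O (Set.range ρ) = ⊤) (h2inv : IsUnit (2 : O))
    {y : Module.End O X} (hy : ((0 : Module.End O V), y) ∈ chP ρ s) : y = 0 := by
  obtain ⟨a, a', haa⟩ := exists_comm_sq_eq_one (O := O) (V := V) h2
  obtain ⟨h, hh⟩ := exists_mem_chP (s := s) hspan a
  obtain ⟨h', hh'⟩ := exists_mem_chP (s := s) hspan a'
  set w : Module.End O X := h * h' - h' * h with hw
  have hwP : ((a * a' - a' * a, w) : Module.End O V × Module.End O X) ∈ chP ρ s :=
    sub_mem (chP_mul ρ s hh hh') (chP_mul ρ s hh' hh)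
  have huP : ((1 : Module.End O V), w * w) ∈ chP ρ s := by
    have := chP_mul ρ s hwP hwP
    rwa [Prod.mk_mul_mk, haa] at this
  have hzP : ((0 : Module.End O V), w * w - 1) ∈ chP ρ s := by
    have := sub_mem huP (chP_one ρ s)
    rwa [show ((1 : Module.End O V), w * w) - (1 : Module.End O V × Module.End O X)
      = (0, w * w - 1) from by ext1 <;> simp] at this
  -- every `y` over `0` kills `w`
  have hkill : ∀ y' : Module.End O X, ((0 : Module.End O V), y') ∈ chP ρ s → y' * w = 0 := by
    intro y' hy'
    rw [hw, mul_sub]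
    exact sub_eq_zero.mpr (ch_comm hCH hy' hh hh')
  have hneg : ∀ y' : Module.End O X, ((0 : Module.End O V), y') ∈ chP ρ s →
      y' * (w * w - 1) = - y' := by
    intro y' hy'
    rw [mul_sub, ← mul_assoc, hkill y' hy', zero_mul, mul_one, zero_sub]
  set z : Module.End O X := w * w - 1 with hz
  have hzz : z * z = - z := hneg z hzP
  have hzz' : z * z = - (z * z) := by
    have := ch_intertwine hCH hzP hzP
    rw [chDag_apply] at this
    simpa using this
  have hz2 : (2 : O) • (z * z) = 0 := by
    rw [two_smul]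
    nth_rewrite 1 [hzz']
    exact neg_add_cancel _
  have hz0 : z * z = 0 := by
    obtain ⟨u, hu⟩ := h2inv
    have := congrArg (fun t => (↑u⁻¹ : O) • t) hz2
    simpa [← hu, smul_smul] using this
  have hz00 : z = 0 := by rw [← neg_eq_zero, ← hzz, hz0]
  have := hneg y hy
  rw [hz00, mul_zero] at this
  exact neg_eq_zero.mp this.symm

/-- **CH-lemma**: every linear relation between the `ρ g` holds for the `s g`. -/
theorem ch_lemma [Module.Free O V] [Module.Finite O V] (h2 : Module.finrank O V = 2)
    (hCH : ∀ g, s g * s g - LinearMap.trace O V (ρ g) • s g + LinearMap.det (ρ g) • 1 = 0)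
    (hspan : Submodule.span O (Set.range ρ) = ⊤) (h2inv : IsUnit (2 : O))
    (c : G →₀ O) (hc : (c.sum fun g a => a • ρ g) = 0) : (c.sum fun g a => a • s g) = 0 := by
  apply ch_eq_zero h2 hCH hspan h2inv
  have h1 : (c.sum fun g a => a • ((ρ g, s g) : Module.End O V × Module.End O X)) ∈ chP ρ s :=
    Submodule.sum_mem _ fun g _ => Submodule.smul_mem _ _ (chP_gen ρ s g)
  have h2 : (c.sum fun g a => a • ((ρ g, s g) : Module.End O V × Module.End O X))
      = (c.sum fun g a => a • ρ g, c.sum fun g a => a • s g) := by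
    simp only [Finsupp.sum]
    ext1
    · simp [Prod.fst_sum]
    · simp [Prod.snd_sum]
  rw [h2, hc] at h1
  exact h1

end CH

end Fermat.Agent.CAR.W
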