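import Mathlib
import Fermat.Prelude.Def_CuspForm_Newforms
import Fermat.Agent.CAR.W.Defs
import Fermat.Agent.TOR.S35Wiring

/-!
# CAR / W : END-TO-END typechecked chain for S36.

`S36_of_S30` : the conclusion of S36 (verbatim) from
* `S30Statement`       (landed: existence of `ρ`),
* `CoreStatement`      (abstract algebra of block [W], `CAR/W/Core.lean`),
* existence of a place over `q`,
* `NotUnipAt lam q O' (eigenFn …)` for every `q ≠ lam` with `q² ‖ M`  (Theorem C + norms + newform).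

The hypothesis `hres` of S36 (absolute irreducibility, oddness) is NOT needed.
-/

set_option autoImplicit false

namespace Fermat.Agent.CAR.W

open Fermat.Agent.GR.Adic Fermat.Agent.TOR Polynomial

local notation "Qbar'" => AlgebraicClosure ℚ

/-- Consequence of the contract for any representation with the right Frobenius polynomials outside a
finite set `B`, with coefficients in an extension `R` of `O`. -/
theorem not_unipotent_of_notUnipAt (hcore : CoreStatement) {p : ℕ} (hp : p.Prime) (hp2 : p ≠ 2)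
    {q : ℕ} (hq : q.Prime) (hqp : q ≠ p)
    (hpl : ∃ A : ValuationSubring Qbar', A.LiesOverPrime q)
    {O : Type} [CommRing O] {al : ℕ → O} (hNU : NotUnipAt p q O al)
    {R : Type} [CommRing R] [IsDomain R] [CharZero R] [IsLocalRing R]
    [IsAdicComplete (IsLocalRing.maximalIdeal R) R]
    (hpR : (p : R) ∈ IsLocalRing.maximalIdeal R) (f : O →+* R)
    (ρ : GaloisRepAdic R) (B : Finset ℕ)
    (hρ : ∀ ℓ : ℕ, ℓ.Prime → ℓ ∉ B → ∀ A : ValuationSubring Qbar', A.LiesOverPrime ℓ →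
      ∀ σ : GQ, A.IsFrobeniusAt σ ℓ →
        LinearMap.charpoly (ρ.ρ σ) = X ^ 2 - C (f (al ℓ)) * X + C (ℓ : R)) :
    ¬ ρ.IsUnipotentOnInertiaAt q := by
  classical
  obtain ⟨bad, K, 𝕋, _, ι, τ, ψ, c, 𝒲, hpbad, hτ, hker, hψ, hc, h𝒲κ, h𝒲G, hC⟩ := hNU
  obtain ⟨A, hA⟩ := hpl
  intro hun
  have hsub : (↑bad : Set ℕ) ⊆ (↑(bad ∪ B) : Set ℕ) := by
    intro x hx
    simp only [Finset.coe_union, Set.mem_union]
    exact Or.inl hx
  refine hcore hp hp2 (bad := bad ∪ B) (Finset.mem_union_left _ hpbad) (K.mono hsub) ι τ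
    (fun ℓ hℓ hmem => hτ ℓ hℓ fun h' => hmem (Finset.mem_union_left _ h'))
    hpR (f.comp ψ) (fun t ht => by rw [RingHom.comp_apply, hker t ht, map_zero]) ρ
    (fun ℓ hℓ hmem A' hA' σ' hσ' => by
      rw [RingHom.comp_apply, hψ ℓ hℓ fun h' => hmem (Finset.mem_union_left _ h')]
      exact hρ ℓ hℓ (fun h' => hmem (Finset.mem_union_right _ h')) A' hA' σ' hσ')
    hq hqp A hA c hc 𝒲 h𝒲κ h𝒲G (hC A hA) (hun A hA)

/-- **S36 from S30, the abstract core and the contract `NotUnipAt` at every `q ≠ lam`, `q² ‖ M`.** -/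
theorem S36_of_S30 (hS30 : S30Statement) (hcore : CoreStatement)
    (hpl : ∀ q : ℕ, q.Prime → ∃ A : ValuationSubring Qbar', A.LiesOverPrime q)
    {M : ℕ} [NeZero M]
    (lam : ℕ) [Fact lam.Prime]
    (S : Finset ℕ)
    (O' : Type) [CommRing O'] [IsDomain O'] [IsDiscreteValuationRing O']
    [IsAdicComplete (IsLocalRing.maximalIdeal O') O'] [Finite (IsLocalRing.ResidueField O')]
    [CharZero O'] (hlamO' : (lam : O') ∈ IsLocalRing.maximalIdeal O')
    (hlam2 : lam ≠ 2)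
    (chig : CuspForm.heckeAlgebra M 2 (↑S : Set ℕ) →+* ℂ)
    (iota : chig.range →+* O')
    (hlamS : lam ∈ S) (hMS : ∀ q : ℕ, q.Prime → q ∣ M → q ∈ S)
    (hNU : ∀ q : ℕ, q.Prime → q ≠ lam → M.factorization q = 2 →
      NotUnipAt lam q O' (eigenFn (iota.comp chig.rangeRestrict))) :
    ∃ (O'' : Type) (_ : CommRing O'') (_ : IsDomain O'') (_ : IsDiscreteValuationRing O'')
      (_ : IsAdicComplete (IsLocalRing.maximalIdeal O'') O'') (_ : Finite (IsLocalRing.ResidueField O''))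
      (_ : CharZero O'') (_ : Algebra O' O'') (_ : Module.Finite O' O'') (_ : IsLocalHom (algebraMap O' O'')),
      Function.Injective (algebraMap O' O'') ∧
      ∃ ρ : GaloisRepAdic O'',
        (∀ (ℓ : ℕ) (hℓ : ℓ.Prime) (hℓM : ¬ ℓ ∣ M) (hℓS : ℓ ∉ (↑S : Set ℕ)),
          ∀ A : ValuationSubring (AlgebraicClosure ℚ), A.LiesOverPrime ℓ →
            ∀ σ : AlgebraicClosure ℚ ≃ₐ[ℚ] AlgebraicClosure ℚ, A.IsFrobeniusAt σ ℓ →
              LinearMap.charpoly (ρ.ρ σ) =
                X ^ 2 - C (algebraMap O' O'' ((iota.comp chig.rangeRestrict) (CuspForm.heckeAlgebra.T hℓ hℓM hℓS))) * X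
                  + C ((ℓ : O''))) ∧
        (∀ q : ℕ, q.Prime → q ≠ lam → M.factorization q = 2 → ¬ ρ.IsUnipotentOnInertiaAt q) := by
  obtain ⟨O'', i1, i2, i3, i4, i5, i6, i7, i8, i9, hinj, ρ, hρ, -⟩ :=
    hS30 lam M S hlamS hMS O' hlamO' (iota.comp chig.rangeRestrict)
  refine ⟨O'', i1, i2, i3, i4, i5, i6, i7, i8, i9, hinj, ρ, hρ, ?_⟩
  intro q hq hqlam hqM
  have hlamO'' : (lam : O'') ∈ IsLocalRing.maximalIdeal O'' := by
    have h1 : (lam : O'') = algebraMap O' O'' (lam : O') := (map_natCast _ _).symm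
    rw [h1]
    exact map_nonunit (algebraMap O' O'') _ hlamO'
  refine not_unipotent_of_notUnipAt hcore (Fact.out : lam.Prime) hlam2 hq hqlam (hpl q hq)
    (hNU q hq hqlam hqM) hlamO'' (algebraMap O' O'') ρ (S ∪ M.primeFactors) ?_
  intro ℓ hℓ hmem A' hA' σ' hσ'
  rw [Finset.mem_union, not_or] at hmem
  have hℓM : ¬ ℓ ∣ M := fun hd => hmem.2 (Nat.mem_primeFactors.2 ⟨hℓ, hd, NeZero.ne M⟩)
  have hℓS : ℓ ∉ (↑S : Set ℕ) := by simpa using hmem.1
  rw [eigenFn_eq _ hℓ hℓM hℓS]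
  exact hρ ℓ hℓ hℓM hℓS A' hA' σ' hσ'

end Fermat.Agent.CAR.W
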