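import Mathlib
import Fermat.Agent.CAR.W.Inst
import Fermat.Agent.CAR.FQ2E.Gal
import Fermat.Agent.GAL.AN.Family

/-!
# CAR / W / Contracts : the symmetric form of the contract `Theorem C`

Level `M₁ = M' * q * q`, `q ∤ M'`, `F = FN (M' * q * q)`, `F1 = FN (M' * q)`,
`N1, N2 : F →* F1` the norms along the two degeneracy maps (`CAR/FQ2E/Deg.lean`).

* `NormTriv M' q n u` : `z = u ^ n` lies in `F` and both norms `N1 z`, `N2 z` are `n`-th powers in `F1`.
* `ThmCContract` : **Theorem C** (geometric part), symmetric form.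
The chain of S36 is in `CAR/W/Top.lean` (`S36_of_thmC`); the bridge `ThmCContract → ThmCStatement` is in
`CAR/W/ContractBridge.lean`.
-/

set_option autoImplicit false

open ModularCurve AlgebraicCurve CongruenceSubgroup ModularCurve.Period ModularFormClass
open Fermat.Agent.GAL Fermat.Agent.GAL.HK Fermat.Agent.GR.CB Fermat.Agent.TOR
open Fermat.Agent.S24 Fermat.Agent.CAR.FQ2E
open scoped MatrixGroups

noncomputable section

namespace Fermat.Agent.CAR.W

/-- `u ^ n = z ∈ F` and both norms of `z` are `n`-th powers in `F1`. -/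
def NormTriv (M' q : ℕ) [NeZero M'] [NeZero q] (n : ℕ) (u : UU) : Prop :=
  ∃ z : FN (M' * q * q), (z : LaurentSeries Qb) = (u : LaurentSeries Qb) ^ n ∧
    (∃ y : FN (M' * q), y ^ n = N1 M' q z) ∧ (∃ y : FN (M' * q), y ^ n = N2 M' q z)

/-- **Theorem C** (contract with the geometric part of CAR).  `M₁ = M' q²`, `q ∤ M'`, `M'` admissible.
There is `c ≠ 0` (depending only on `M'`, `q`) such that: if `u` is an everywhere unramified Kummer
element of exponent `n` prime to `q` at level `M₁`, both norms of `u ^ n` to level `M' q` are `n`-th powers,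
and the class of `u` is fixed by the inertia group of a place `A` over `q`, then `u ^ c ∈ F`. -/
def ThmCContract : Prop :=
  ∀ (M' q : ℕ) [NeZero M'] [NeZero q], q.Prime → ¬ q ∣ M' → AdmLevel M' →
    ∃ c : ℕ, c ≠ 0 ∧ ∀ n : ℕ, n ≠ 0 → ¬ q ∣ n → ∀ u : UU,
      IsKum Qb (M' * q * q) n (u : LaurentSeries Qb) → NormTriv M' q n u →
      ∀ A : ValuationSubring Qb, A.LiesOverPrime q →
        (∀ σ ∈ A.inertiaSubgroupIn ℚ, galU σ u * u⁻¹ ∈ FLU (M' * q * q)) →
        u ^ c ∈ FLU (M' * q * q)

end Fermat.Agent.CAR.W
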