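import Mathlib

/-!
# CAR-W1 : `(σ-1)² = 0` on `𝒱` for all `σ ∈ I`, odd exponent, invariants killed by `c` ⇒ `c³ 𝒱 = 0`
-/

set_option autoImplicit false

namespace Fermat.Agent.CAR.W

/-- `a² = b² = (a+b+ab)² = 0`, `1 + a` left invertible, `1 + b` right invertible ⇒ `ab = -ba`. -/
theorem Delta_anticomm {R : Type*} [Ring R] {a b : R} (u v : R) (ha : a * a = 0) (hb : b * b = 0)
    (hab : (a + b + a * b) * (a + b + a * b) = 0) (hu : u * (1 + a) = 1) (hv : (1 + b) * v = 1) :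
    a * b + b * a = 0 := by
  have E : a * b + b * a + b * a * b + a * b * a + a * b * a * b = 0 := by
    have h : (a + b + a * b) * (a + b + a * b)
        = a * b + b * a + b * a * b + a * b * a + a * b * a * b
          + (a * a + b * b + (a * a) * b + a * (b * b)) := by noncomm_ring
    rw [hab, ha, hb] at h
    simpa using h.symm
  have h1 : a * b * a * (1 + b) = 0 := by
    have h : a * (a * b + b * a + b * a * b + a * b * a + a * b * a * b)
        = a * b * a * (1 + b) + ((a * a) * b + (a * a) * b * a + (a * a) * b * a * b) := by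
      noncomm_ring
    rw [E, ha] at h
    simpa using h.symm
  have h2 : a * b * a = 0 := by
    calc a * b * a = a * b * a * ((1 + b) * v) := by rw [hv, mul_one]
      _ = (a * b * a * (1 + b)) * v := by rw [mul_assoc (a * b * a)]
      _ = 0 := by rw [h1, zero_mul]
  have h3 : (1 + a) * (b * a * b) = 0 := by
    have h : (a * b + b * a + b * a * b + a * b * a + a * b * a * b) * b
        = (1 + a) * (b * a * b) + (a * (b * b) + b * a * (b * b) + a * b * a * (b * b)) := by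
      noncomm_ring
    rw [E, hb] at h
    simpa using h.symm
  have h4 : b * a * b = 0 := by
    calc b * a * b = (u * (1 + a)) * (b * a * b) := by rw [hu, one_mul]
      _ = u * ((1 + a) * (b * a * b)) := by rw [mul_assoc]
      _ = 0 := by rw [h3, mul_zero]
  rw [h4, h2] at E
  simpa using E

/-- anticommutation of the `ρ σ - 1`. -/
theorem Delta_anticomm_hom {R : Type*} [Ring R] {I : Type*} [Group I] (ρ : I →* R)
    (hsq : ∀ σ, (ρ σ - 1) * (ρ σ - 1) = 0) (σ τ : I) :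
    (ρ σ - 1) * (ρ τ - 1) + (ρ τ - 1) * (ρ σ - 1) = 0 := by
  refine Delta_anticomm (ρ σ⁻¹) (ρ τ⁻¹) (hsq σ) (hsq τ) ?_ ?_ ?_
  · have h : ρ σ - 1 + (ρ τ - 1) + (ρ σ - 1) * (ρ τ - 1) = ρ (σ * τ) - 1 := by
      rw [map_mul]; noncomm_ring
    rw [h]
    exact hsq _
  · rw [add_sub_cancel, ← map_mul, inv_mul_cancel, map_one]
  · rw [add_sub_cancel, ← map_mul, mul_inv_cancel, map_one]

/-- `2 a b e = 0`. -/
theorem Delta_two_mul {R : Type*} [Ring R] {I : Type*} [Group I] (ρ : I →* R)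
    (hsq : ∀ σ, (ρ σ - 1) * (ρ σ - 1) = 0) (σ τ υ : I) :
    (ρ σ - 1) * (ρ τ - 1) * (ρ υ - 1) + (ρ σ - 1) * (ρ τ - 1) * (ρ υ - 1) = 0 := by
  have h1 := Delta_anticomm_hom ρ hsq σ (τ * υ)
  have h2 := Delta_anticomm_hom ρ hsq σ τ
  have h3 := Delta_anticomm_hom ρ hsq σ υ
  have h : ρ (τ * υ) - 1 = ρ τ - 1 + (ρ υ - 1) + (ρ τ - 1) * (ρ υ - 1) := by
    rw [map_mul]; noncomm_ring
  rw [h] at h1
  generalize ρ σ - 1 = a at *
  generalize ρ τ - 1 = b at *
  generalize ρ υ - 1 = e at *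
  have h4 : a * b * e + a * b * e = (a * (b + e + b * e) + (b + e + b * e) * a) - (a * b + b * a)
      - (a * e + e * a) - b * (a * e + e * a) + (a * b + b * a) * e := by noncomm_ring
  rw [h4, h1, h2, h3]
  simp

/-- the action of `I` on `𝒱`. -/
def Delta_rho {W : Type*} [AddCommGroup W] {G : Type*} [Group G]
    (act : G →* Module.End ℤ W) (I : Subgroup G) (𝒱 : AddSubgroup W)
    (hst : ∀ σ ∈ I, ∀ w ∈ 𝒱, act σ w ∈ 𝒱) : ↥I →* AddMonoid.End ↥𝒱 where
  toFun σ := ((act σ).toAddMonoidHom.comp 𝒱.subtype).codRestrict 𝒱 (fun w => hst σ σ.2 w w.2)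
  map_one' := by
    ext w
    show act ((1 : ↥I) : G) (w : W) = w
    rw [Subgroup.coe_one, map_one]; rfl
  map_mul' σ τ := by
    ext w
    show act ((σ * τ : ↥I) : G) (w : W) = act σ (act τ (w : W))
    rw [Subgroup.coe_mul, map_mul]; rfl

theorem Delta_rho_apply {W : Type*} [AddCommGroup W] {G : Type*} [Group G]
    (act : G →* Module.End ℤ W) (I : Subgroup G) (𝒱 : AddSubgroup W)
    (hst : ∀ σ ∈ I, ∀ w ∈ 𝒱, act σ w ∈ 𝒱) (σ : ↥I) (w : ↥𝒱) :
    ((Delta_rho act I 𝒱 hst σ w : ↥𝒱) : W) = act σ w := rfl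

theorem cube_smul_eq_zero {W : Type*} [AddCommGroup W] {G : Type*} [Group G]
    (act : G →* Module.End ℤ W) (I : Subgroup G) (𝒱 : AddSubgroup W)
    (hst : ∀ σ ∈ I, ∀ w ∈ 𝒱, act σ w ∈ 𝒱) (N : ℕ) (hN : Odd N) (htor : ∀ w ∈ 𝒱, N • w = 0)
    (hsq : ∀ σ ∈ I, ∀ w ∈ 𝒱, act σ (act σ w) - 2 • act σ w + w = 0)
    (c : ℕ) (hfix : ∀ w ∈ 𝒱, (∀ σ ∈ I, act σ w = w) → c • w = 0) :
    ∀ w ∈ 𝒱, c ^ 3 • w = 0 := by
  set ρ := Delta_rho act I 𝒱 hst with hρ
  have hsq' : ∀ σ, (ρ σ - 1) * (ρ σ - 1) = 0 := by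
    intro σ
    ext w
    have h := hsq σ σ.2 w w.2
    have h1 : ((((ρ σ - 1) * (ρ σ - 1)) w : ↥𝒱) : W)
        = act σ (act σ w - w) - (act σ w - w) := rfl
    rw [h1, map_sub]
    rw [two_smul] at h
    show _ = (0 : W)
    rw [← h]
    abel
  have htor' : ∀ x : ↥𝒱, x + x = 0 → x = 0 := by
    intro x hx
    obtain ⟨k, hk⟩ := hN
    have h1 : N • x = 0 := Subtype.ext (htor x x.2)
    rw [hk, add_smul, one_smul, mul_comm, mul_smul, two_smul, hx, smul_zero, zero_add] at h1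
    exact h1
  have hfix' : ∀ x : ↥𝒱, (∀ σ, (ρ σ - 1) x = 0) → c • x = 0 := by
    intro x hx
    refine Subtype.ext (hfix x x.2 fun σ hσ => ?_)
    have h := congrArg Subtype.val (hx ⟨σ, hσ⟩)
    have h1 : (((ρ ⟨σ, hσ⟩ - 1) x : ↥𝒱) : W) = act σ x - x := rfl
    rw [h1] at h
    exact sub_eq_zero.mp h
  have key : ∀ σ τ υ x, (ρ σ - 1) ((ρ τ - 1) ((ρ υ - 1) x)) = 0 := by
    intro σ τ υ x
    apply htor'
    have h := congrArg (fun f : AddMonoid.End ↥𝒱 => f x) (Delta_two_mul ρ hsq' σ τ υ)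
    exact h
  have s1 : ∀ τ υ x, c • ((ρ τ - 1) ((ρ υ - 1) x)) = 0 := fun τ υ x =>
    hfix' _ fun σ => key σ τ υ x
  have s2 : ∀ υ x, c • ((ρ υ - 1) (c • x)) = 0 := fun υ x =>
    hfix' _ fun τ => by rw [map_nsmul, map_nsmul]; exact s1 τ υ x
  have s3 : ∀ x : ↥𝒱, c • (c • (c • x)) = 0 := fun x =>
    hfix' _ fun υ => by rw [map_nsmul]; exact s2 υ x
  intro w hw
  have h := congrArg Subtype.val (s3 ⟨w, hw⟩)
  rw [pow_succ, pow_succ, pow_one, mul_smul, mul_smul]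
  exact h

end Fermat.Agent.CAR.W
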