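import Mathlib

/-!
# CAR / W2b : the determinant trick on the dual lattice

`N X^* ⊆ J X^*` implies that some `j ∈ J` acts on `X` as `N ^ rank X`.
-/

set_option autoImplicit false

namespace Fermat.Agent.CAR.W

/-- the sublattice `J · X^*` of the dual lattice. -/
def dualSpan {X : Type*} [AddCommGroup X] {𝕋 : Type*} [CommRing 𝕋] (ι : 𝕋 →+* Module.End ℤ X)
    (J : Ideal 𝕋) : Submodule ℤ (Module.Dual ℤ X) :=
  Submodule.span ℤ {ψ | ∃ u ∈ J, ∃ φ : Module.Dual ℤ X, ψ = φ ∘ₗ ι u}

/-- every element of `J · X^*` is `∑_c φ_c ∘ ι (j c)` with `j c ∈ J`, pointwise form. -/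
theorem Det_exists_coeff {X : Type*} [AddCommGroup X] {𝕋 : Type*} [CommRing 𝕋]
    {κ : Type*} [Fintype κ] (b : Module.Basis κ ℤ X) (ι : 𝕋 →+* Module.End ℤ X) (J : Ideal 𝕋)
    {ψ : Module.Dual ℤ X} (hψ : ψ ∈ dualSpan ι J) :
    ∃ j : κ → 𝕋, (∀ c, j c ∈ J) ∧ ∀ x : X, ψ x = ∑ c, b.coord c (ι (j c) x) := by
  unfold dualSpan at hψ
  induction hψ using Submodule.span_induction with
  | mem ψ h =>
    obtain ⟨u, hu, φ, rfl⟩ := h
    refine ⟨fun c => ((φ (b c) : ℤ) : 𝕋) * u, fun c => J.mul_mem_left _ hu, fun x => ?_⟩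
    have h1 : ∀ c, b.coord c (ι (((φ (b c) : ℤ) : 𝕋) * u) x) = b.repr (ι u x) c * φ (b c) := by
      intro c
      rw [map_mul, map_intCast, Module.End.mul_apply, Module.End.intCast_apply, map_zsmul,
        Module.Basis.coord_apply, smul_eq_mul, mul_comm]
    simp only [h1]
    rw [LinearMap.comp_apply]
    conv_lhs => rw [← b.sum_repr (ι u x)]
    rw [map_sum]
    refine Finset.sum_congr rfl fun c _ => ?_
    rw [map_zsmul, smul_eq_mul]
  | zero => exact ⟨0, fun c => J.zero_mem, fun x => by simp⟩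
  | add ψ ψ' _ _ h h' =>
    obtain ⟨j, hj, hjx⟩ := h
    obtain ⟨j', hj', hjx'⟩ := h'
    refine ⟨j + j', fun c => J.add_mem (hj c) (hj' c), fun x => ?_⟩
    rw [LinearMap.add_apply, hjx, hjx', ← Finset.sum_add_distrib]
    refine Finset.sum_congr rfl fun c _ => ?_
    rw [Pi.add_apply, map_add, LinearMap.add_apply, map_add]
  | smul n ψ _ h =>
    obtain ⟨j, hj, hjx⟩ := h
    refine ⟨fun c => (n : 𝕋) * j c, fun c => J.mul_mem_left _ (hj c), fun x => ?_⟩
    rw [LinearMap.smul_apply, hjx, Finset.smul_sum]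
    refine Finset.sum_congr rfl fun c _ => ?_
    rw [map_mul, map_intCast, Module.End.mul_apply, Module.End.intCast_apply, map_zsmul]

theorem exists_mem_ideal_of_dualSpan {X : Type*} [AddCommGroup X] [Module.Free ℤ X]
    [Module.Finite ℤ X] {𝕋 : Type*} [CommRing 𝕋] (ι : 𝕋 →+* Module.End ℤ X) (J : Ideal 𝕋) (N : ℕ)
    (h : ∀ φ : Module.Dual ℤ X, N • φ ∈ dualSpan ι J) :
    ∃ j ∈ J, ι j = ((N ^ Module.finrank ℤ X : ℕ) : Module.End ℤ X) := by
  classical
  set r := Module.finrank ℤ X with hr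
  let b : Module.Basis (Fin r) ℤ X := Module.finBasis ℤ X
  choose j hj hjx using fun a => Det_exists_coeff b ι J (h (b.coord a))
  set Mx : Matrix (Fin r) (Fin r) 𝕋 := (N : 𝕋) • (1 : Matrix (Fin r) (Fin r) 𝕋) - Matrix.of j
    with hMx
  have key : ∀ a x, ∑ c, b.coord c (ι (Mx a c) x) = 0 := by
    intro a x
    have h1 : ∀ c, b.coord c (ι (Mx a c) x)
        = (if a = c then N • b.coord c x else 0) - b.coord c (ι (j a c) x) := by
      intro c
      rw [hMx, Matrix.sub_apply, Matrix.smul_apply, Matrix.of_apply, Matrix.one_apply, map_sub,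
        LinearMap.sub_apply, map_sub]
      congr 1
      split_ifs with hac
      · rw [smul_eq_mul, mul_one, map_natCast, Module.End.natCast_apply, map_nsmul]
      · rw [smul_zero, map_zero, LinearMap.zero_apply, map_zero]
    simp only [h1]
    rw [Finset.sum_sub_distrib, ← hjx a x, Finset.sum_ite_eq, if_pos (Finset.mem_univ a),
      LinearMap.smul_apply, sub_self]
  have step : ∀ c₀ x, b.coord c₀ (ι Mx.det x) = 0 := by
    intro c₀ x
    have h1 : ∑ a, ∑ c, b.coord c (ι (Mx a c) (ι (Mx.adjugate c₀ a) x)) = 0 :=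
      Finset.sum_eq_zero fun a _ => key a _
    rw [Finset.sum_comm] at h1
    have h2 : ∀ c, ∑ a, b.coord c (ι (Mx a c) (ι (Mx.adjugate c₀ a) x))
        = b.coord c (ι ((Mx.adjugate * Mx) c₀ c) x) := by
      intro c
      rw [Matrix.mul_apply, map_sum, LinearMap.sum_apply, map_sum]
      refine Finset.sum_congr rfl fun a _ => ?_
      rw [mul_comm, map_mul, Module.End.mul_apply]
    simp only [h2, Matrix.adjugate_mul] at h1
    rw [Finset.sum_eq_single c₀] at h1
    · simpa using h1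
    · intro c _ hc
      simp [Matrix.one_apply_ne hc.symm]
    · simp
  have hdet : ι Mx.det = 0 := by
    refine LinearMap.ext fun x => b.ext_elem fun c => ?_
    have := step c x
    rw [Module.Basis.coord_apply] at this
    rw [this]
    simp
  refine ⟨(N : 𝕋) ^ r - Mx.det, ?_, ?_⟩
  · rw [← Ideal.Quotient.eq_zero_iff_mem, map_sub, map_pow, map_natCast, RingHom.map_det]
    have h1 : (Ideal.Quotient.mk J).mapMatrix Mx
        = (N : 𝕋 ⧸ J) • (1 : Matrix (Fin r) (Fin r) (𝕋 ⧸ J)) := by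
      ext a c
      rw [RingHom.mapMatrix_apply, Matrix.map_apply, hMx, Matrix.sub_apply, Matrix.smul_apply,
        Matrix.of_apply, map_sub, Ideal.Quotient.eq_zero_iff_mem.mpr (hj a c), sub_zero,
        Matrix.smul_apply, Matrix.one_apply, Matrix.one_apply]
      split_ifs <;> simp
    rw [h1, Matrix.det_smul, Matrix.det_one, Fintype.card_fin, mul_one, sub_self]
  · rw [map_sub, hdet, sub_zero, map_pow, map_natCast, Nat.cast_pow]

end Fermat.Agent.CAR.W
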