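import Mathlib

/-!
# CAR / W2a : a sublattice of the dual lattice detecting `p^m`-divisibility up to `C`

contains `N' C X^*` with `p ∤ N'` (Smith normal form).
-/

set_option autoImplicit false

namespace Fermat.Agent.CAR.W

theorem Lattice_arith {p : ℕ} (hp : p.Prime) {m C : ℕ} (hC : ¬ p ^ m ∣ C) (d : ℕ)
    (h : p ^ m ∣ C * (p ^ m / Nat.gcd (p ^ m) d)) : ∃ d' : ℕ, ¬ p ∣ d' ∧ d ∣ d' * C := by
  obtain ⟨v, hv, hg⟩ := (Nat.dvd_prime_pow hp).mp (Nat.gcd_dvd_left (p ^ m) d)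
  rw [hg, Nat.pow_div hv hp.pos] at h
  have h1 : p ^ v ∣ C := by
    have h2 : p ^ m = p ^ v * p ^ (m - v) := by rw [← pow_add, Nat.add_sub_cancel' hv]
    rw [h2] at h
    exact Nat.dvd_of_mul_dvd_mul_right (pow_pos hp.pos _) h
  have hvm : v < m := lt_of_le_of_ne hv (by rintro rfl; exact hC h1)
  obtain ⟨d', hd'⟩ : p ^ v ∣ d := hg ▸ Nat.gcd_dvd_right (p ^ m) d
  refine ⟨d', fun hpd => ?_, ?_⟩
  · have h2 : p ^ (v + 1) ∣ Nat.gcd (p ^ m) d :=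
      Nat.dvd_gcd (pow_dvd_pow p hvm) (by rw [hd', pow_succ]; exact Nat.mul_dvd_mul_left _ hpd)
    rw [hg] at h2
    exact absurd ((Nat.pow_dvd_pow_iff_le_right hp.one_lt).mp h2) (by omega)
  · obtain ⟨t, rfl⟩ := h1
    rw [hd']
    exact ⟨t, by ring⟩

theorem exists_smul_mem_of_dual {X : Type*} [AddCommGroup X] [Module.Free ℤ X] [Module.Finite ℤ X]
    (𝒴 : Submodule ℤ (Module.Dual ℤ X)) {p : ℕ} (hp : p.Prime) (m C : ℕ) (hC : ¬ p ^ m ∣ C)
    (h : ∀ x : X, (∀ φ ∈ 𝒴, ((p ^ m : ℕ) : ℤ) ∣ φ x) → ∃ y : X, C • x = (p ^ m) • y) :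
    ∃ N' : ℕ, ¬ p ∣ N' ∧ ∀ φ : Module.Dual ℤ X, (N' * C) • φ ∈ 𝒴 := by
  classical
  obtain ⟨k, snf⟩ := Submodule.smithNormalForm (Module.finBasis ℤ (Module.Dual ℤ X)) 𝒴
  set β := snf.bM with hβ
  -- the dual family
  let x : Fin (Module.finrank ℤ (Module.Dual ℤ X)) → X :=
    fun a => (Module.evalEquiv ℤ X).symm (β.coord a)
  have hxφ : ∀ (φ : Module.Dual ℤ X) a, φ (x a) = β.repr φ a := by
    intro φ a
    show φ ((Module.evalEquiv ℤ X).symm (β.coord a)) = _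
    rw [Module.apply_evalEquiv_symm_apply, Module.Basis.coord_apply]
  have hxx : ∀ a, β a (x a) = 1 := by
    intro a
    rw [hxφ, Module.Basis.repr_self, Finsupp.single_eq_same]
  -- `f` is onto
  have hsurj : ∀ a, ∃ i, snf.f i = a := by
    intro a
    by_contra hcon
    have ha : a ∉ Set.range snf.f := fun ⟨i, hi⟩ => hcon ⟨i, hi⟩
    obtain ⟨y, hy⟩ := h (x a) (fun φ hφ => by
      rw [hxφ, snf.repr_eq_zero_of_notMem_range ⟨φ, hφ⟩ ha]
      exact dvd_zero _)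
    have h1 := congrArg (β a) hy
    rw [map_nsmul, map_nsmul, hxx, nsmul_eq_mul, nsmul_eq_mul, mul_one] at h1
    apply hC
    have h2 : ((p ^ m : ℕ) : ℤ) ∣ (C : ℤ) := ⟨β a y, h1⟩
    exact_mod_cast h2
  -- the elementary divisors
  have hd : ∀ i, ∃ d' : ℕ, ¬ p ∣ d' ∧ (snf.a i).natAbs ∣ d' * C := by
    intro i
    apply Lattice_arith hp hC
    set g := Nat.gcd (p ^ m) (snf.a i).natAbs with hg
    obtain ⟨e, he⟩ : g ∣ p ^ m := Nat.gcd_dvd_left _ _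
    have hg0 : 0 < g := Nat.pos_of_dvd_of_pos (Nat.gcd_dvd_left _ _) (pow_pos hp.pos m)
    have hdiv : p ^ m / g = e := by rw [he, Nat.mul_div_cancel_left _ hg0]
    rw [hdiv]
    obtain ⟨y, hy⟩ := h (e • x (snf.f i)) (fun φ hφ => by
      rw [map_nsmul, hxφ, snf.repr_apply_embedding_eq_repr_smul ⟨φ, hφ⟩, map_zsmul,
        Finsupp.smul_apply, nsmul_eq_mul, smul_eq_mul, ← mul_assoc]
      apply Dvd.dvd.mul_right
      have h3 : (g : ℤ) ∣ snf.a i := Int.natCast_dvd.mpr (Nat.gcd_dvd_right _ _)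
      obtain ⟨t, ht⟩ := h3
      rw [ht, he]
      exact ⟨t, by push_cast; ring⟩)
    have h1 := congrArg (β (snf.f i)) hy
    rw [map_nsmul, map_nsmul, map_nsmul, hxx, nsmul_eq_mul, nsmul_eq_mul, nsmul_eq_mul,
      mul_one] at h1
    have h2 : ((p ^ m : ℕ) : ℤ) ∣ ((C * e : ℕ) : ℤ) := ⟨β (snf.f i) y, by push_cast; exact h1⟩
    exact_mod_cast h2
  choose d' hd'p hd'C using hd
  refine ⟨∏ i, d' i, fun hdvd => ?_, fun φ => ?_⟩
  · obtain ⟨i, -, hi⟩ := (Prime.dvd_finsetProd_iff hp.prime _).mp hdvd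
    exact hd'p i hi
  · have hβmem : ∀ a, ((∏ i, d' i) * C) • β a ∈ 𝒴 := by
      intro a
      obtain ⟨i, rfl⟩ := hsurj a
      have h1 : (snf.a i).natAbs ∣ (∏ i, d' i) * C := by
        obtain ⟨s, hs⟩ := Finset.dvd_prod_of_mem d' (Finset.mem_univ i)
        rw [hs, mul_right_comm]
        exact Dvd.dvd.mul_right (hd'C i) s
      have h2 : snf.a i ∣ (((∏ i, d' i) * C : ℕ) : ℤ) :=
        Int.natAbs_dvd_natAbs.mp (by rw [Int.natAbs_natCast]; exact h1)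
      obtain ⟨s, hs⟩ := h2
      have h3 : ((∏ i, d' i) * C) • β (snf.f i) = s • (snf.bN i : Module.Dual ℤ X) := by
        rw [snf.snf, smul_smul, mul_comm s, ← hs, natCast_zsmul]
      rw [h3]
      exact 𝒴.smul_mem s (snf.bN i).2
    rw [← β.sum_repr φ, Finset.smul_sum]
    refine 𝒴.sum_mem fun a _ => ?_
    rw [smul_comm]
    exact 𝒴.smul_mem _ (hβmem a)

end Fermat.Agent.CAR.W
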