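import Mathlib
import Fermat.Agent.CAR.W.Defs
import Fermat.Agent.CAR.W.Delta
import Fermat.Agent.CAR.W.Lattice
import Fermat.Agent.CAR.W.Det
import Fermat.Agent.S32.ChebTrace
import Fermat.Agent.GAL.Cheb.Export

/-!
# CAR / W : the abstract core of the wiring of S36

`coreStatement_of_cheb : WeakChebotarev → CoreStatement`.

Suppose `ρ` is unipotent on `I = I_A`.  Fix `n`, and `m` with `p ^ m ∤ c ^ 3`.  For a conjugate `γ` of an element
of `I`, `tr ρ(γ) = 2` and `γ` fixes `μ_{p^m}`, so there is `t ∈ 𝕋` with `ψ t - 2 ∈ 𝔪 ^ n` and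
`κ_m (t x) = (γ + γ⁻¹) κ_m x` (`S32.chebTrace_one`).  Let `J` be the ideal generated by these `t - 2`.  If
`J x ⊆ p ^ m X` then `(γ - 1)² κ_m x = 0` for all `γ`; by `cube_smul_eq_zero`, `c ^ 3 • κ_m x = 0`.  By
`exists_smul_mem_of_dual` and `exists_mem_ideal_of_dualSpan` some `j ∈ J` acts as `(N' c ^ 3) ^ r`, `p ∤ N'`; so
`c ^ (3 r) ∈ 𝔪 ^ n` for all `n`: contradiction.
-/

set_option autoImplicit false

namespace Fermat.Agent.CAR.W

open Fermat.Agent.GR.Adic Fermat.Agent.TOR IsLocalRing Module Polynomial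
open Fermat.Agent.GR.Asm (WeakChebotarev)

local notation "Qbar'" => AlgebraicClosure ℚ

/-- trace of a conjugate of a unipotent element. -/
theorem core_trace_conj {R : Type} [CommRing R] [IsLocalRing R] (ρ : GaloisRepAdic R) (σ g : GQ)
    (h : LinearMap.charpoly (ρ.ρ σ) = (X - 1) ^ 2) :
    LinearMap.trace R ρ.V (ρ.ρ (g * σ * g⁻¹)) = 2 := by
  have h1 : LinearMap.trace R ρ.V (ρ.ρ σ) = 2 := by
    refine (tor_trace_det_of_charpoly ρ.finrank_eq (ρ.ρ σ) 2 1 ?_).1
    rw [h]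
    simp only [map_ofNat, map_one]
    ring
  rw [map_mul, LinearMap.trace_mul_comm, ← map_mul, inv_mul_cancel_left, h1]

/-- conjugates of inertia at `q ≠ p` fix `μ_{p^m}`. -/
theorem core_conj_root {p q : ℕ} (hp : p.Prime) (hq : q.Prime) (hqp : q ≠ p)
    (A : ValuationSubring Qbar') (hA : A.LiesOverPrime q) (σ : GQ) (hσ : σ ∈ A.inertiaSubgroupIn ℚ)
    (g : GQ) (m : ℕ) (ζ : Qbar') (hζ : ζ ^ (p ^ m) = 1) : (g * σ * g⁻¹) ζ = ζ ^ 1 := by
  have h1 : (g⁻¹ ζ) ^ (p ^ m) = 1 := by rw [← map_pow, hζ, map_one]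
  rw [AlgEquiv.mul_apply, AlgEquiv.mul_apply, tor_inertia_root A hp hq hqp hA σ hσ m h1, pow_one,
    ← AlgEquiv.mul_apply, mul_inv_cancel, AlgEquiv.one_apply]

/-- an element of a lattice all of whose coordinates are divisible by `d` is divisible by `d`. -/
theorem core_dvd_of_dual {X : Type*} [AddCommGroup X] [Module.Free ℤ X] [Module.Finite ℤ X]
    (d : ℕ) (x : X) (h : ∀ φ : Module.Dual ℤ X, (d : ℤ) ∣ φ x) : ∃ y : X, x = d • y := by
  classical
  let b := Module.Free.chooseBasis ℤ X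
  choose k hk using fun i => h (b.coord i)
  refine ⟨∑ i, k i • b i, ?_⟩
  rw [Finset.smul_sum]
  conv_lhs => rw [← b.sum_repr x]
  refine Finset.sum_congr rfl fun i _ => ?_
  have : b.repr x i = (d : ℤ) * k i := hk i
  rw [this, mul_smul, natCast_zsmul]

/-- a natural number prime to `p` is a unit of a local ring of residue characteristic `p`. -/
theorem core_isUnit_natCast {R : Type*} [CommRing R] [IsLocalRing R] {p : ℕ} (hp : p.Prime)
    (hpR : (p : R) ∈ maximalIdeal R) {N : ℕ} (hN : ¬ p ∣ N) : IsUnit (N : R) := by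
  by_contra hu
  have hNm : (N : R) ∈ maximalIdeal R := (mem_maximalIdeal _).2 hu
  have hcop : Nat.Coprime p N := (Nat.Prime.coprime_iff_not_dvd hp).2 hN
  have h1 : ((p : ℤ) * Nat.gcdA p N + (N : ℤ) * Nat.gcdB p N : ℤ) = 1 := by
    have := Nat.gcd_eq_gcd_ab p N
    rw [hcop] at this
    exact_mod_cast this.symm
  have h2 : (1 : R) ∈ maximalIdeal R := by
    have h3 := congrArg (Int.cast : ℤ → R) h1
    push_cast at h3
    rw [← h3]
    exact Ideal.add_mem _ (Ideal.mul_mem_right _ _ hpR) (Ideal.mul_mem_right _ _ hNm)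
  exact (Ideal.ne_top_iff_one _).1 (maximalIdeal.isMaximal R).ne_top h2

/-- The subgroup `𝒱` of the proof. -/
def coreV {p : ℕ} {bad : Set ℕ} (K : KSys p bad) (𝒲 : AddSubgroup K.W) (I : Subgroup GQ) (N : ℕ) :
    AddSubgroup K.W where
  carrier := {w | w ∈ 𝒲 ∧ N • w = 0 ∧ ∀ g : GQ, ∀ σ ∈ I,
    K.act σ (K.act σ (K.act g w)) - 2 • K.act σ (K.act g w) + K.act g w = 0}
  zero_mem' := ⟨𝒲.zero_mem, smul_zero _, fun g σ _ => by simp⟩
  add_mem' := by
    rintro a b ⟨ha1, ha2, ha3⟩ ⟨hb1, hb2, hb3⟩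
    refine ⟨𝒲.add_mem ha1 hb1, by rw [smul_add, ha2, hb2, add_zero], fun g σ hσ => ?_⟩
    have h1 := ha3 g σ hσ
    have h2 := hb3 g σ hσ
    simp only [map_add, smul_add]
    rw [← add_zero (0 : K.W)]
    nth_rewrite 1 [← h1]
    nth_rewrite 1 [← h2]
    abel
  neg_mem' := by
    rintro a ⟨ha1, ha2, ha3⟩
    refine ⟨𝒲.neg_mem ha1, by rw [smul_neg, ha2, neg_zero], fun g σ hσ => ?_⟩
    have h1 := ha3 g σ hσ
    simp only [map_neg, smul_neg]
    rw [← neg_zero (G := K.W)]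
    nth_rewrite 1 [← h1]
    abel

theorem coreStatement_of_cheb (hcheb : WeakChebotarev) : CoreStatement := by
  intro p hp hp2 bad hpbad K 𝕋 _ ι τ hτ R _ _ _ _ _ hpR ψ hker ρ hρ q hq hqp A hA c hc 𝒲 hκ𝒲 hG𝒲
    hfix hunip
  classical
  set I := A.inertiaSubgroupIn ℚ with hI
  set r := Module.finrank ℤ K.L0 with hr
  -- the exponent `m`
  set m := c ^ 3 with hm
  have hc3 : 0 < c ^ 3 := pow_pos (Nat.pos_of_ne_zero hc) 3
  have hCm : ¬ p ^ m ∣ c ^ 3 :=
    Nat.not_dvd_of_pos_of_lt hc3 (Nat.lt_pow_self hp.one_lt)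
  have hodd : Odd (p ^ m) := (hp.odd_of_ne_two hp2).pow
  -- main claim
  have key : ∀ n : ℕ, ((c ^ 3) ^ r : R) ∈ maximalIdeal R ^ n := by
    intro n
    -- generators of `J`
    let gen : Set 𝕋 := {j | ψ j ∈ maximalIdeal R ^ n ∧ ∃ g : GQ, ∃ σ ∈ I, ∀ x : K.L0,
      K.κ m (ι j x) = K.act (g * σ * g⁻¹) (K.κ m x) + K.act (g * σ * g⁻¹)⁻¹ (K.κ m x)
        - 2 • K.κ m x}
    let J : Ideal 𝕋 := Ideal.span gen
    have hψJ : ∀ j ∈ J, ψ j ∈ maximalIdeal R ^ n := by
      have : J ≤ Ideal.comap ψ (maximalIdeal R ^ n) := Ideal.span_le.2 fun j hj => hj.1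
      exact fun j hj => this hj
    -- existence of generators
    have hgen : ∀ g : GQ, ∀ σ ∈ I, ∃ j ∈ gen, ∀ x : K.L0,
        K.κ m (ι j x) = K.act (g * σ * g⁻¹) (K.κ m x) + K.act (g * σ * g⁻¹)⁻¹ (K.κ m x)
          - 2 • K.κ m x := by
      intro g σ hσ
      obtain ⟨t, ht1, ht2⟩ := S32.chebTrace_one hcheb hp hpbad K ι τ hτ ψ ρ hρ n m (g * σ * g⁻¹) 1
        (fun ζ hζ => core_conj_root hp hq hqp A hA σ hσ g m ζ hζ)
      have hform : ∀ x : K.L0,
          K.κ m (ι (t - 2) x) = K.act (g * σ * g⁻¹) (K.κ m x) + K.act (g * σ * g⁻¹)⁻¹ (K.κ m x)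
            - 2 • K.κ m x := by
        intro x
        rw [map_sub, LinearMap.sub_apply, map_sub, ht1, one_smul, map_ofNat]
        congr 1
        rw [← map_nsmul]
        congr 1
      refine ⟨t - 2, ⟨?_, g, σ, hσ, hform⟩, hform⟩
      rw [core_trace_conj ρ σ g (hunip σ hσ)] at ht2
      have : ψ (t - 2) = -(2 - ψ t) := by rw [map_sub, map_ofNat]; ring
      rw [this]
      exact (Ideal.neg_mem_iff _).2 ht2
    -- hypothesis of the lattice lemma
    have hlat : ∀ x : K.L0, (∀ φ ∈ dualSpan ι J, ((p ^ m : ℕ) : ℤ) ∣ φ x) →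
        ∃ y : K.L0, (c ^ 3) • x = (p ^ m) • y := by
      intro x hx
      have hzero : ∀ j ∈ gen, K.κ m (ι j x) = 0 := by
        intro j hj
        refine (K.κ_ker m _).2 (core_dvd_of_dual (p ^ m) (ι j x) fun φ => ?_)
        exact hx (φ ∘ₗ ι j) (Submodule.subset_span ⟨j, Ideal.subset_span hj, φ, rfl⟩)
      have hmemV : K.κ m x ∈ coreV K 𝒲 I (p ^ m) := by
        refine ⟨hκ𝒲 m x, K.pow_smul_kappa m x, fun g σ hσ => ?_⟩
        obtain ⟨j, hj, hjx⟩ := hgen g⁻¹ σ hσ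
        have h0 := (hjx x).symm.trans (hzero j hj)
        have h1 := congrArg (K.act (σ * g)) h0
        rw [map_zero, map_sub, map_add, map_nsmul] at h1
        simp only [← Module.End.mul_apply, ← map_mul] at h1 ⊢
        have e1 : σ * g * (g⁻¹ * σ * g⁻¹⁻¹) = σ * (σ * g) := by group
        have e2 : σ * g * (g⁻¹ * σ * g⁻¹⁻¹)⁻¹ = g := by group
        rw [e1, e2] at h1
        rw [← h1]
        abel
      have hcube := cube_smul_eq_zero K.act I (coreV K 𝒲 I (p ^ m))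
        (fun σ hσ w hw => by
          obtain ⟨h1, h2, h3⟩ := hw
          refine ⟨hG𝒲 σ w h1, by rw [← map_nsmul, h2, map_zero], fun g σ' hσ' => ?_⟩
          have := h3 (g * σ) σ' hσ'
          rwa [map_mul, Module.End.mul_apply] at this)
        (p ^ m) hodd (fun w hw => hw.2.1)
        (fun σ hσ w hw => by
          have := hw.2.2 1 σ hσ
          rwa [map_one, Module.End.one_apply] at this)
        c (fun w hw hinv => hfix w hw.1 hinv) (K.κ m x) hmemV
      rw [← map_nsmul] at hcube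
      exact (K.κ_ker m _).1 hcube
    obtain ⟨N', hN', hall⟩ := exists_smul_mem_of_dual (dualSpan ι J) hp m (c ^ 3) hCm hlat
    obtain ⟨j, hjJ, hj⟩ := exists_mem_ideal_of_dualSpan ι J (N' * c ^ 3) hall
    have h1 : ψ j = (((N' * c ^ 3) ^ r : ℕ) : R) := by
      have h2 : ι (j - (((N' * c ^ 3) ^ r : ℕ) : 𝕋)) = 0 := by
        rw [map_sub, hj, map_natCast, sub_self]
      have h3 := hker _ h2
      rw [map_sub, map_natCast, sub_eq_zero] at h3
      exact h3
    have h2 := hψJ j hjJ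
    rw [h1] at h2
    push_cast at h2
    rw [mul_pow] at h2
    exact (Ideal.unit_mul_mem_iff_mem _ ((core_isUnit_natCast hp hpR hN').pow r)).1 h2
  have hzero : ((c ^ 3) ^ r : R) = 0 := by
    have hH : IsHausdorff (maximalIdeal R) R := inferInstance
    refine hH.haus' _ fun n => ?_
    rw [SModEq.zero, smul_eq_mul, Ideal.mul_top]
    exact key n
  have : (((c ^ 3) ^ r : ℕ) : R) = 0 := by exact_mod_cast hzero
  rw [Nat.cast_eq_zero] at this
  exact (pow_pos hc3 r).ne' this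

/-- **The abstract core of the wiring of S36, unconditional.** -/
theorem coreStatement : CoreStatement :=
  coreStatement_of_cheb Fermat.Agent.GAL.Cheb.weakChebotarev_asm

end Fermat.Agent.CAR.W
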