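import Mathlib
import Fermat.Agent.CAR.W.Chain
import Fermat.Agent.CAR.W.Core
import Fermat.Agent.CAR.W.ThmC
import Fermat.Agent.TOR.Final
import Fermat.Agent.Lib.FrobeniusExists

/-!
# CAR / W / Top : S36 (verbatim) from the key lemma, Theorem C and the export of [WN]

* `ThmCStatement` : `ThmC M' q c0` for all `q ∤ M'`, `M'` admissible, some `c0 ≠ 0`.
* `WNExport`      : the classes attached to the dual period lattice of a newform `g` of level `M`, `q² ‖ M`, at any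
                    level `M' q²` divisible by `M`, have trivial norms.
* `S36_of_thmC : KeyLemmaStatement → ThmCStatement → WNExport → (S36 verbatim, without hres)`.
-/

set_option autoImplicit false

open ModularCurve AlgebraicCurve CongruenceSubgroup ModularCurve.Period ModularFormClass
open IsLocalRing Polynomial
open Fermat.Agent.GAL Fermat.Agent.GAL.HK Fermat.Agent.GR.CB Fermat.Agent.TOR Fermat.Agent.S24
open Fermat.Agent.GR.HeckeField

noncomputable section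

namespace Fermat.Agent.CAR.W

/-- the geometric contract of CAR. -/
def ThmCStatement : Prop :=
  ∀ (M' q : ℕ) [NeZero M'] [NeZero q], q.Prime → ¬ q ∣ M' → AdmLevel M' →
    ∃ c0 : ℕ, c0 ≠ 0 ∧ ThmC M' q c0

/-- the contract with [WN]. -/
def WNExport : Prop :=
  ∀ (M M' q lam : ℕ) [NeZero M] [NeZero M'] [NeZero q] (_ : q.Prime) (_ : ¬ q ∣ M')
    (hadm : AdmLevel (M' * q * q)) (hlam : lam.Prime) (_ : q ≠ lam) (h : M ∣ M' * q * q)
    (_ : M.factorization q = 2) (g : CuspForm (Gamma0 M) 2) (_ : g.IsNewform) (m : ℕ)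
    (f : Module.Dual ℤ (perGrp (periodMap (M' * q * q) (levelUp h g)))),
    nmU q (torPsiRep (AN.anFamily (M' * q * q) lam hlam.ne_zero hadm) m
        (redL (M' * q * q) (lam ^ m) (perEmbL (periodMap (M' * q * q) (levelUp h g))
          (S21.periodMap_mem_parabolicHoms _) f)) : UU) ∈ FLU (M' * q * q) ∧
    ∃ (z y : FN (M' * q * q)),
      (z : LaurentSeries Qb) = ((torPsiRep (AN.anFamily (M' * q * q) lam hlam.ne_zero hadm) m
        (redL (M' * q * q) (lam ^ m) (perEmbL (periodMap (M' * q * q) (levelUp h g))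
          (S21.periodMap_mem_parabolicHoms _) f)) : UU) : LaurentSeries Qb) ^ (lam ^ m) ∧
      alp (M' * q) q (FQ2E.N1 M' q z) = y ^ (lam ^ m)

/-- arithmetic of the auxiliary level. -/
theorem car_aux_level {M q : ℕ} (hM : M ≠ 0) (hq : q.Prime) (hfac : M.factorization q = 2) :
    ∃ M' : ℕ, M' ≠ 0 ∧ ¬ q ∣ M' ∧ AdmLevel M' ∧ AdmLevel (M' * q * q) ∧ M ∣ M' * q * q := by
  have h1 : q ^ 2 * (M / q ^ 2) = M := by
    have := Nat.ordProj_mul_ordCompl_eq_self M q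
    rwa [hfac] at this
  have h2 : ¬ q ∣ M / q ^ 2 := by
    have := Nat.not_dvd_ordCompl hq hM
    rwa [hfac] at this
  set M'' := M / q ^ 2 with hM''
  have hM''0 : M'' ≠ 0 := fun h => hM (by rw [← h1, h, mul_zero])
  have key : ∀ c : ℕ, c ≠ 0 → Nat.Coprime q c → (∀ k : ℕ, c ∣ k → AdmLevel k) →
      ∃ M' : ℕ, M' ≠ 0 ∧ ¬ q ∣ M' ∧ AdmLevel M' ∧ AdmLevel (M' * q * q) ∧ M ∣ M' * q * q := by
    intro c hc0 hc hadm
    refine ⟨c * M'', Nat.mul_ne_zero hc0 hM''0, fun h => h2 (hc.dvd_of_dvd_mul_left h),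
      hadm _ (Dvd.intro _ rfl), hadm _ ⟨M'' * q * q, by ring⟩, ⟨c, ?_⟩⟩
    rw [← h1]
    ring
  by_cases h2 : q = 2
  · exact key 9 (by norm_num) (by rw [h2]; norm_num) (fun k hk => Or.inr hk)
  · exact key 4 (by norm_num)
      (Nat.Coprime.pow_right 2 ((Nat.coprime_primes hq Nat.prime_two).2 h2)) (fun k hk => Or.inl hk)

/-- **S36 (verbatim, `hres` not needed) from the key lemma, Theorem C and [WN].** -/
theorem S36_of_thmC (hK : KeyLemmaStatement) (hC : ThmCStatement) (hWN : WNExport)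
    {M : ℕ} [NeZero M] {g : CuspForm (CongruenceSubgroup.Gamma0 M) 2} (hg : g.IsNewform)
    (lam : ℕ) [Fact lam.Prime]
    (S : Finset ℕ)
    (O' : Type) [CommRing O'] [IsDomain O'] [IsDiscreteValuationRing O']
    [IsAdicComplete (IsLocalRing.maximalIdeal O') O'] [Finite (IsLocalRing.ResidueField O')]
    [CharZero O'] (hlamO' : (lam : O') ∈ IsLocalRing.maximalIdeal O')
    (hlam2 : lam ≠ 2)
    (chig : CuspForm.heckeAlgebra M 2 (↑S : Set ℕ) →+* ℂ)
    (hchig : ∀ (ℓ : ℕ) (hℓ : ℓ.Prime) (hℓM : ¬ ℓ ∣ M) (hℓS : ℓ ∉ (↑S : Set ℕ)),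
      chig (CuspForm.heckeAlgebra.T hℓ hℓM hℓS) = ModularFormClass.qCoeff g ℓ)
    (iota : chig.range →+* O')
    (hlamS : lam ∈ S) (hMS : ∀ q : ℕ, q.Prime → q ∣ M → q ∈ S) :
    ∃ (O'' : Type) (_ : CommRing O'') (_ : IsDomain O'') (_ : IsDiscreteValuationRing O'')
      (_ : IsAdicComplete (IsLocalRing.maximalIdeal O'') O'') (_ : Finite (IsLocalRing.ResidueField O''))
      (_ : CharZero O'') (_ : Algebra O' O'') (_ : Module.Finite O' O'') (_ : IsLocalHom (algebraMap O' O'')),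
      Function.Injective (algebraMap O' O'') ∧
      ∃ ρ : GaloisRepAdic O'',
        (∀ (ℓ : ℕ) (hℓ : ℓ.Prime) (hℓM : ¬ ℓ ∣ M) (hℓS : ℓ ∉ (↑S : Set ℕ)),
          ∀ A : ValuationSubring (AlgebraicClosure ℚ), A.LiesOverPrime ℓ →
            ∀ σ : AlgebraicClosure ℚ ≃ₐ[ℚ] AlgebraicClosure ℚ, A.IsFrobeniusAt σ ℓ →
              LinearMap.charpoly (ρ.ρ σ) =
                X ^ 2 - C (algebraMap O' O'' ((iota.comp chig.rangeRestrict) (CuspForm.heckeAlgebra.T hℓ hℓM hℓS))) * X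
                  + C ((ℓ : O''))) ∧
        (∀ q : ℕ, q.Prime → q ≠ lam → M.factorization q = 2 → ¬ ρ.IsUnipotentOnInertiaAt q) := by
  have hlam : lam.Prime := Fact.out
  refine S36_of_S30 (Fermat.Agent.GR.Adic.S30_of_keyLemma hK) coreStatement
    (fun q hq => Fermat.Agent.Lib.FrobeniusExists.exists_liesOverPrime hq) lam S O' hlamO' hlam2
    chig iota hlamS hMS ?_
  intro q hq hqlam hfac
  obtain ⟨M', hM'0, hqM', hadm', hadm, hdvd⟩ := car_aux_level (NeZero.ne M) hq hfac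
  have : NeZero M' := ⟨hM'0⟩
  have : NeZero q := ⟨hq.ne_zero⟩
  obtain ⟨c0, hc0, hThm⟩ := hC M' q hq hqM' hadm'
  refine notUnipAt_of_eigenform hdvd hg.1 hlam
    (AN.anFamily (M' * q * q) lam hlam.ne_zero hadm) (esElt_of_keyLemma hadm _ hK)
    chig.range iota _ (S ∪ M.primeFactors) ?_ (normGrp M' q lam)
    (normGrp_galU hq hqM' lam) ?_ c0 hc0
    (fun A hA u hu huV hinv => pow_mem_of_thmC hlam hq hqlam hThm _ A hA u hu huV hinv)
  · intro ℓ hℓ hmem
    rw [Finset.mem_union, not_or] at hmem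
    have hℓM : ¬ ℓ ∣ M := fun hd => hmem.2 (Nat.mem_primeFactors.2 ⟨hℓ, hd, NeZero.ne M⟩)
    have hℓS : ℓ ∉ (↑S : Set ℕ) := by simpa using hmem.1
    refine ⟨⟨_, hchig ℓ hℓ hℓM hℓS⟩, ?_⟩
    rw [eigenFn_eq _ hℓ hℓM hℓS, RingHom.comp_apply]
    congr 1
    exact Subtype.ext (hchig ℓ hℓ hℓM hℓS).symm
  · intro m f
    obtain ⟨h1, z, y, hz, hy⟩ := hWN M M' q lam hq hqM' hadm hlam hqlam hdvd hfac g hg m f
    have hqn : ¬ q ∣ lam ^ m := fun h =>
      hqlam ((Nat.prime_dvd_prime_iff_eq hq hlam).1 (hq.dvd_of_dvd_pow h))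
    obtain ⟨y', hy'⟩ := exists_pow_eq_of_alp hq hqM' hqn _ y hy
    exact ⟨h1, m, z, y', hz, hy'⟩

end Fermat.Agent.CAR.W
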