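import Mathlib
import Fermat.Agent.CAR.W.Contracts
import Fermat.Agent.CAR.W.Sym
import Fermat.Agent.CAR.W.Top

/-!
# CAR / W / ContractBridge : `ThmCContract` (symmetric form) implies `ThmCStatement` (form used by the chain)
-/

set_option autoImplicit false

open Fermat.Agent.GAL Fermat.Agent.GR.CB Fermat.Agent.TOR

namespace Fermat.Agent.CAR.W

theorem thmCStatement_of_contract (h : ThmCContract) : ThmCStatement := by
  intro M' q _ _ hq hqM' hadm
  obtain ⟨c, hc0, hc⟩ := h M' q hq hqM' hadm
  exact ⟨c, hc0, thmC_of_sym hq hqM' hc⟩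

end Fermat.Agent.CAR.W
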