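import Mathlib
import Fermat.Agent.GR.Adic.Defs

/-!
# CAR / W / Flat : invariants commute with a flat base change (smooth actions)

`smul_eq_zero_of_fixed` : `W` a smooth `G_ℚ`-module, `I ≤ G_ℚ`, `c` kills `W^I`, `O` flat over `ℤ`.
Then `c` kills `(O ⊗ W)^I`.

PROOF.  `W_L` := the elements of `W` fixed by all `σ` fixing the finite level `L`.  Every `z ∈ O ⊗ W` is the image
of some `z' ∈ O ⊗ W_L` (induction on `z`; compositum of levels).  The restrictions `τ|_L`, `τ ∈ I`, form a finite
set `R`; choose a section `s : R → I`; on `W_L` : fixed by all `s y` ⇒ fixed by `I`.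
`f : W_L → (R → W)`, `x ↦ (s y x - x)_y`; `0 → ker f → W_L → (R → W)` stays exact after `O ⊗ -`
(`Module.Flat.lTensor_exact`, `TensorProduct.piRight`), so `z'` comes from `O ⊗ ker f`, which is killed by `c`.
-/

set_option autoImplicit false

open TensorProduct

namespace Fermat.Agent.CAR.W

open Fermat.Agent.GR.Adic (GQ FixesLevel)

/-- the elements of level `L`. -/
def flatLev {W : Type*} [AddCommGroup W] (act : GQ →* Module.End ℤ W)
    (L : IntermediateField ℚ (AlgebraicClosure ℚ)) : Submodule ℤ W where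
  carrier := {x | ∀ σ : GQ, FixesLevel L σ → act σ x = x}
  add_mem' := fun {a b} ha hb σ hσ => by rw [map_add, ha σ hσ, hb σ hσ]
  zero_mem' := fun σ _ => map_zero _
  smul_mem' := fun c x hx σ hσ => by rw [map_smul, hx σ hσ]

theorem flatLev_mono {W : Type*} [AddCommGroup W] (act : GQ →* Module.End ℤ W)
    {L L' : IntermediateField ℚ (AlgebraicClosure ℚ)} (h : L ≤ L') :
    flatLev act L ≤ flatLev act L' :=
  fun _ hx σ hσ => hx σ fun a ha => hσ a (h ha)

theorem flat_range_mono (O : Type*) {W : Type*} [CommRing O] [AddCommGroup W]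
    {U U' : Submodule ℤ W} (h : U ≤ U') :
    LinearMap.range (U.subtype.lTensor O) ≤ LinearMap.range (U'.subtype.lTensor O) := by
  rintro _ ⟨z, rfl⟩
  refine ⟨(Submodule.inclusion h).lTensor O z, ?_⟩
  rw [← LinearMap.comp_apply, ← LinearMap.lTensor_comp]
  rfl

theorem flat_exists_level {O W : Type*} [CommRing O] [AddCommGroup W]
    (act : GQ →* Module.End ℤ W)
    (smooth : ∀ x : W, ∃ L : IntermediateField ℚ (AlgebraicClosure ℚ), FiniteDimensional ℚ L ∧
      ∀ σ : GQ, FixesLevel L σ → act σ x = x) (z : O ⊗[ℤ] W) :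
    ∃ L : IntermediateField ℚ (AlgebraicClosure ℚ), FiniteDimensional ℚ L ∧
      z ∈ LinearMap.range ((flatLev act L).subtype.lTensor O) := by
  induction z using TensorProduct.induction_on with
  | zero => exact ⟨⊥, inferInstance, Submodule.zero_mem _⟩
  | tmul o x =>
    obtain ⟨L, hL, hx⟩ := smooth x
    exact ⟨L, hL, o ⊗ₜ (⟨x, hx⟩ : flatLev act L), rfl⟩
  | add z₁ z₂ h₁ h₂ =>
    obtain ⟨L₁, hL₁, hz₁⟩ := h₁
    obtain ⟨L₂, hL₂, hz₂⟩ := h₂
    refine ⟨L₁ ⊔ L₂, IntermediateField.finiteDimensional_sup L₁ L₂, Submodule.add_mem _ ?_ ?_⟩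
    · exact flat_range_mono O (flatLev_mono act le_sup_left) hz₁
    · exact flat_range_mono O (flatLev_mono act le_sup_right) hz₂

theorem flat_smul_eq_zero {O U : Type*} [CommRing O] [AddCommGroup U] (c : ℤ)
    (h : ∀ x : U, c • x = 0) (z : O ⊗[ℤ] U) : c • z = 0 := by
  induction z using TensorProduct.induction_on with
  | zero => exact smul_zero _
  | tmul o x => rw [← TensorProduct.tmul_smul, h, TensorProduct.tmul_zero]
  | add z₁ z₂ h₁ h₂ => rw [smul_add, h₁, h₂, add_zero]

theorem smul_eq_zero_of_fixed {O W : Type*} [CommRing O] [Module.Flat ℤ O] [AddCommGroup W]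
    (act : GQ →* Module.End ℤ W)
    (smooth : ∀ x : W, ∃ L : IntermediateField ℚ (AlgebraicClosure ℚ), FiniteDimensional ℚ L ∧
      ∀ σ : GQ, FixesLevel L σ → act σ x = x)
    (I : Subgroup GQ) (c : ℤ)
    (hC : ∀ x : W, (∀ τ ∈ I, act τ x = x) → c • x = 0)
    (z : O ⊗[ℤ] W) (hz : ∀ τ ∈ I, (act τ).baseChange O z = z) : c • z = 0 := by
  classical
  obtain ⟨L, hL, z', rfl⟩ := flat_exists_level act smooth z
  -- the finite set of restrictions
  let r : I → (L →ₐ[ℚ] AlgebraicClosure ℚ) := fun τ =>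
    (((τ : GQ) : AlgebraicClosure ℚ ≃ₐ[ℚ] AlgebraicClosure ℚ) :
      AlgebraicClosure ℚ →ₐ[ℚ] AlgebraicClosure ℚ).comp L.val
  have hfin : Finite (Set.range r) := Subtype.finite
  have : Fintype (Set.range r) := Fintype.ofFinite _
  let s : Set.range r → I := fun y => y.2.choose
  have hs : ∀ y : Set.range r, r (s y) = y := fun y => y.2.choose_spec
  let f : flatLev act L →ₗ[ℤ] (Set.range r → W) :=
    LinearMap.pi fun y => (act (s y : GQ) - 1) ∘ₗ (flatLev act L).subtype
  have hf : ∀ (x : flatLev act L) (y : Set.range r), f x y = act (s y : GQ) (x : W) - x :=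
    fun _ _ => rfl
  -- the kernel of `f` is killed by `c`
  have hker : ∀ x : LinearMap.ker f, c • x = 0 := by
    intro x
    apply Subtype.ext
    apply Subtype.ext
    show c • ((x : flatLev act L) : W) = 0
    apply hC
    intro τ hτ
    set y : Set.range r := ⟨r ⟨τ, hτ⟩, ⟨τ, hτ⟩, rfl⟩ with hy
    have h1 : act (s y : GQ) ((x : flatLev act L) : W) = ((x : flatLev act L) : W) := by
      have h2 : f (x : flatLev act L) y = 0 := by
        rw [LinearMap.mem_ker.mp x.2]; rfl
      rw [hf] at h2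
      exact sub_eq_zero.mp h2
    have h3 : FixesLevel L ((s y : GQ)⁻¹ * τ) := by
      intro a ha
      have h4 : (s y : GQ) a = τ a := DFunLike.congr_fun (hs y) (⟨a, ha⟩ : L)
      show (s y : GQ)⁻¹ (τ a) = a
      rw [← h4]
      exact (s y : GQ).symm_apply_apply a
    have h5 := (x : flatLev act L).2 _ h3
    have h6 : τ = (s y : GQ) * ((s y : GQ)⁻¹ * τ) := by group
    rw [h6, map_mul, Module.End.mul_apply, h5, h1]
  -- `z'` is killed by `1 ⊗ f`
  have hcomp : ∀ (w : O ⊗[ℤ] flatLev act L) (y : Set.range r),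
      TensorProduct.piRight ℤ ℤ O (fun _ : Set.range r => W) (f.lTensor O w) y
        = (act (s y : GQ)).baseChange O ((flatLev act L).subtype.lTensor O w)
          - (flatLev act L).subtype.lTensor O w := by
    intro w y
    induction w using TensorProduct.induction_on with
    | zero => simp
    | tmul o x =>
      rw [LinearMap.lTensor_tmul, LinearMap.lTensor_tmul, LinearMap.baseChange_tmul,
        TensorProduct.piRight_apply, TensorProduct.piRightHom_tmul]
      show o ⊗ₜ[ℤ] f x y = _
      rw [hf, TensorProduct.tmul_sub]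
      rfl
    | add w₁ w₂ h₁ h₂ =>
      rw [map_add, map_add, Pi.add_apply, h₁, h₂, map_add, map_add]
      abel
  have hz0 : f.lTensor O z' = 0 := by
    apply (TensorProduct.piRight ℤ ℤ O (fun _ : Set.range r => W)).injective
    rw [map_zero]
    funext y
    rw [hcomp, hz _ (s y).2, sub_self]
    rfl
  obtain ⟨z'', rfl⟩ := (Module.Flat.lTensor_exact O (LinearMap.exact_subtype_ker_map f) z').mp hz0
  rw [← map_smul, ← map_smul, flat_smul_eq_zero c hker, map_zero, map_zero]

end Fermat.Agent.CAR.W
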