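import Mathlib

/-!
# CAR / W / Kolchin : a group of unipotent `2 × 2` matrices over a reduced ring

`kolchin_two` : `N² = N'² = 0`, `tr N = tr N' = tr (N N') = 0`  ⇒  `N N' = 0`.
`unipotent_mul_eq_zero` : if all `ρ σ`, `σ ∈ I`, have characteristic polynomial `(X - 1)²` then
`(ρ τ - 1) (ρ τ' - 1) = 0` for `τ, τ' ∈ I`.
-/

set_option autoImplicit false

namespace Fermat.Agent.CAR.W

open Polynomial

theorem kolchin_matrix {O : Type*} [CommRing O] [IsReduced O] (A A' : Matrix (Fin 2) (Fin 2) O)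
    (ht : A.trace = 0) (hA : A * A = 0) (ht' : A'.trace = 0) (hA' : A' * A' = 0)
    (hT : (A * A').trace = 0) : A * A' = 0 := by
  have hd : A 1 1 = - A 0 0 := by
    rw [Matrix.trace_fin_two] at ht
    exact eq_neg_of_add_eq_zero_right ht
  have hd' : A' 1 1 = - A' 0 0 := by
    rw [Matrix.trace_fin_two] at ht'
    exact eq_neg_of_add_eq_zero_right ht'
  have h1 : A 0 0 ^ 2 + A 0 1 * A 1 0 = 0 := by
    have := congrFun (congrFun hA 0) 0
    simp only [Matrix.mul_apply, Fin.sum_univ_two, Matrix.zero_apply] at this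
    rw [← this]; ring
  have h2 : A' 0 0 ^ 2 + A' 0 1 * A' 1 0 = 0 := by
    have := congrFun (congrFun hA' 0) 0
    simp only [Matrix.mul_apply, Fin.sum_univ_two, Matrix.zero_apply] at this
    rw [← this]; ring
  have h3 : 2 * A 0 0 * A' 0 0 + A 0 1 * A' 1 0 + A 1 0 * A' 0 1 = 0 := by
    rw [Matrix.trace_fin_two] at hT
    simp only [Matrix.mul_apply, Fin.sum_univ_two, hd, hd'] at hT
    rw [← hT]; ring
  have hz : ∀ x : O, x ^ 2 = 0 → x = 0 := fun x hx => pow_eq_zero_iff (two_ne_zero) |>.mp hx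
  ext i j
  fin_cases i <;> fin_cases j <;>
    simp only [Matrix.mul_apply, Fin.sum_univ_two, Matrix.zero_apply, Fin.zero_eta, Fin.mk_one,
      Fin.isValue, hd, hd'] <;> apply hz
  · linear_combination (A 0 1 * A' 1 0) * h3 - (A 0 1 * A 1 0) * h2 + (A' 0 0) ^ 2 * h1
  · linear_combination (A' 0 1) ^ 2 * h1 + (A 0 1) ^ 2 * h2 - (A 0 1 * A' 0 1) * h3
  · linear_combination (A 1 0) ^ 2 * h2 + (A' 1 0) ^ 2 * h1 - (A 1 0 * A' 1 0) * h3
  · linear_combination (A 1 0 * A' 0 1) * h3 - (A 0 1 * A 1 0) * h2 + (A' 0 0) ^ 2 * h1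

variable {O V : Type*} [CommRing O] [IsReduced O] [AddCommGroup V] [Module O V]
  [Module.Free O V] [Module.Finite O V]

theorem kolchin_two (h2 : Module.finrank O V = 2) (N N' : Module.End O V)
    (ht : LinearMap.trace O V N = 0) (hN : N * N = 0) (ht' : LinearMap.trace O V N' = 0)
    (hN' : N' * N' = 0) (hT : LinearMap.trace O V (N * N') = 0) : N * N' = 0 := by
  classical
  rcases subsingleton_or_nontrivial O with hO | hO
  · have : Subsingleton V := Module.subsingleton O V
    exact Subsingleton.elim _ _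
  let b := Module.finBasisOfFinrankEq O V h2
  let e := LinearMap.toMatrixAlgEquiv b
  have htr : ∀ f : Module.End O V, LinearMap.trace O V f = (e f).trace := fun f =>
    LinearMap.trace_eq_matrix_trace O b f
  apply e.injective
  rw [map_mul, map_zero]
  apply kolchin_matrix
  · rw [← htr, ht]
  · rw [← map_mul, hN, map_zero]
  · rw [← htr, ht']
  · rw [← map_mul, hN', map_zero]
  · rw [← map_mul, ← htr, hT]

omit [IsReduced O] in
theorem trace_of_charpoly_unip (h2 : Module.finrank O V = 2) (f : Module.End O V)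
    (hf : LinearMap.charpoly f = (X - 1) ^ 2) : LinearMap.trace O V f = 2 := by
  classical
  rcases subsingleton_or_nontrivial O with hO | hO
  · exact Subsingleton.elim _ _
  let b := Module.finBasisOfFinrankEq O V h2
  have h := LinearMap.charpoly_toMatrix f b
  rw [Matrix.charpoly_fin_two, hf, ← LinearMap.trace_eq_matrix_trace O b] at h
  have := congrArg (fun P : O[X] => P.coeff 1) h
  have e : ((X - 1 : O[X]) ^ 2) = X ^ 2 - C 2 * X + C 1 := by
    simp only [map_ofNat, map_one]; ring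
  rw [e] at this
  simp only [coeff_add, coeff_sub, coeff_X_pow, coeff_C_mul, coeff_X_one, coeff_C, mul_one] at this
  simpa using this

omit [IsReduced O] in
theorem sub_one_sq_of_charpoly_unip (f : Module.End O V)
    (hf : LinearMap.charpoly f = (X - 1) ^ 2) : (f - 1) * (f - 1) = 0 := by
  have := LinearMap.aeval_self_charpoly f
  rw [hf] at this
  simpa [pow_two] using this

/-- **Kolchin** for a subgroup of unipotent elements. -/
theorem unipotent_mul_eq_zero {G : Type*} [Group G] (h2 : Module.finrank O V = 2)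
    (ρ : G →* Module.End O V) (I : Subgroup G)
    (hI : ∀ σ ∈ I, LinearMap.charpoly (ρ σ) = (X - 1) ^ 2) {τ τ' : G} (hτ : τ ∈ I) (hτ' : τ' ∈ I) :
    (ρ τ - 1) * (ρ τ' - 1) = 0 := by
  have t1 : LinearMap.trace O V (1 : Module.End O V) = 2 := by
    rw [LinearMap.trace_one, h2]; norm_num
  apply kolchin_two h2
  · rw [map_sub, trace_of_charpoly_unip h2 _ (hI τ hτ), t1, sub_self]
  · exact sub_one_sq_of_charpoly_unip _ (hI τ hτ)
  · rw [map_sub, trace_of_charpoly_unip h2 _ (hI τ' hτ'), t1, sub_self]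
  · exact sub_one_sq_of_charpoly_unip _ (hI τ' hτ')
  · have e : (ρ τ - 1) * (ρ τ' - 1) = ρ (τ * τ') - ρ τ - ρ τ' + 1 := by
      rw [map_mul]; noncomm_ring
    rw [e, map_add, map_sub, map_sub, trace_of_charpoly_unip h2 _ (hI _ (mul_mem hτ hτ')),
      trace_of_charpoly_unip h2 _ (hI τ hτ), trace_of_charpoly_unip h2 _ (hI τ' hτ'), t1]
    ring

end Fermat.Agent.CAR.W
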