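import Mathlib
import Fermat.Agent.GR.Adic.RelT
import Fermat.Agent.GR.Adic.S30Main
import Fermat.Agent.TOR.AdicMaster

/-!
# CAR / W / Rel : the Cayley--Hamilton identity of `ρ` holds on every Eichler--Shimura module

`det_eq_eps`  : `det ρ = ε` (both are continuous characters agreeing on Frobenius elements).
`ch_identity` : if `T` is a torsion free, separated, smooth `O[G_ℚ]`-module on which
`σ² - a_ℓ σ + ℓ = 0` for the Frobenius lifts `σ` at `ℓ ∉ B`, and `ρ` is a two dimensional representation with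
`charpoly ρ(σ) = X² - a_ℓ X + ℓ`, then `g² - tr ρ(g) g + det ρ(g) = 0` on `T` for EVERY `g`.

PROOF.  `det_eq_eps`: fix `g`, `n`; `L := L₁ ⊔ L₂`, `L₁` from `TOR.tor_exists_level ρ n`, `L₂` from `hεc n`; weak
Chebotarev gives `σ ^ j = g` on `L`; `det ρ(σ^j) = ℓ^j = ε(σ^j)` (`TOR.tor_trace_det_of_charpoly`);
`ε g - ε (σ^j) = ε g (1 - ε (g⁻¹ σ^j)) ∈ 𝔪^n`; conclude with `TOR.tor_eq_of_forall_sub_mem_pow`.
`ch_identity`: apply `GR.Adic.exists_trace_fn` to `T × ρ.V` with `GR.Adic.prodRep r ρ.ρ` exactly as in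
`GR.Adic.exists_rep_of_two_tmod` (`rel_prod`, `rel_fst`, `rel_snd`; on `ρ.V` the relation at Frobenius is
`LinearMap.aeval_self_charpoly`; `ρ.V` is separated because it is finite free over the complete `O`, smooth by
`ρ.isAdicContinuous`).  This gives `t` with `g² - t g + ε = 0` on `T` and on `ρ.V`.  On `ρ.V` also
`ρ(g)² - tr ρ(g) ρ(g) + det ρ(g) = 0` (`TOR.tor_charpoly_eq` + `aeval_self_charpoly`), `det ρ(g) = ε g`, so
`(tr ρ(g) - t g) ρ(g) = 0`, and `ρ(g)` is invertible, `ρ.V` torsion free and nontrivial : `t g = tr ρ(g)`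
(this is `GR.Adic.trace_fn_unique`).
-/

set_option autoImplicit false

open IsLocalRing Polynomial

namespace Fermat.Agent.CAR.W

open Fermat.Agent.GR.Adic (GQ FixesLevel WeakCheb)

local notation "Qbar'" => AlgebraicClosure ℚ

variable {O : Type} [CommRing O] [IsDomain O] [IsDiscreteValuationRing O]
  [IsAdicComplete (maximalIdeal O) O]

theorem det_eq_eps (hcheb : WeakCheb) (ρ : GaloisRepAdic O) (ε : GQ →* Oˣ)
    (hεc : ∀ n : ℕ, ∃ L : IntermediateField ℚ Qbar', FiniteDimensional ℚ L ∧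
      ∀ σ : GQ, FixesLevel L σ → (ε σ : O) - 1 ∈ maximalIdeal O ^ n)
    (B : Finset ℕ) (a : ℕ → O)
    (hε : ∀ ℓ : ℕ, ℓ.Prime → ℓ ∉ B → ∀ A : ValuationSubring Qbar', A.LiesOverPrime ℓ →
      ∀ σ : GQ, A.IsFrobeniusAt σ ℓ → (ε σ : O) = ℓ)
    (hρ : ∀ ℓ : ℕ, ℓ.Prime → ℓ ∉ B → ∀ A : ValuationSubring Qbar', A.LiesOverPrime ℓ →
      ∀ σ : GQ, A.IsFrobeniusAt σ ℓ →
        LinearMap.charpoly (ρ.ρ σ) = X ^ 2 - C (a ℓ) * X + C (ℓ : O)) (g : GQ) :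
    LinearMap.det (ρ.ρ g) = (ε g : O) := by
  apply TOR.tor_eq_of_forall_sub_mem_pow
  intro n
  obtain ⟨L₁, f₁, h₁⟩ := TOR.tor_exists_level ρ n
  obtain ⟨L₂, f₂, h₂⟩ := hεc n
  have fL : FiniteDimensional ℚ (L₁ ⊔ L₂ : IntermediateField ℚ Qbar') :=
    IntermediateField.finiteDimensional_sup L₁ L₂
  obtain ⟨ℓ, A, σ, j, hℓ, hℓB, hA, hσ, hj⟩ := hcheb (L₁ ⊔ L₂) fL B g
  have hd : LinearMap.det (ρ.ρ σ) = (ℓ : O) :=
    (TOR.tor_trace_det_of_charpoly ρ.finrank_eq _ _ _ (hρ ℓ hℓ hℓB A hA σ hσ)).2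
  have hdj : LinearMap.det (ρ.ρ (σ ^ j)) = (ε (σ ^ j) : O) := by
    rw [map_pow, map_pow, map_pow, hd, Units.val_pow_eq_pow_val, hε ℓ hℓ hℓB A hA σ hσ]
  have h1 := (h₁ g (σ ^ j) (fun x hx => (hj x ((le_sup_left : L₁ ≤ L₁ ⊔ L₂) hx)).symm)).2
  have hfix : FixesLevel L₂ (g⁻¹ * σ ^ j) := by
    intro z hz
    show g⁻¹ ((σ ^ j) z) = z
    rw [hj z ((le_sup_right : L₂ ≤ L₁ ⊔ L₂) hz)]
    exact g.symm_apply_apply z
  have h2 := h₂ _ hfix
  have e0 : (ε (σ ^ j) : O) = (ε g : O) * (ε (g⁻¹ * σ ^ j) : O) := by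
    rw [← Units.val_mul, ← map_mul, mul_inv_cancel_left]
  have e : LinearMap.det (ρ.ρ g) - (ε g : O) =
      (LinearMap.det (ρ.ρ g) - LinearMap.det (ρ.ρ (σ ^ j))) +
        (ε g : O) * ((ε (g⁻¹ * σ ^ j) : O) - 1) := by
    rw [hdj, e0]; ring
  rw [e]
  exact Ideal.add_mem _ h1 (Ideal.mul_mem_left _ _ h2)

/-- Cayley--Hamilton in rank two. -/
theorem rel_ch_self {R V : Type*} [CommRing R] [AddCommGroup V] [Module R V] [Module.Free R V]
    [Module.Finite R V] (h2 : Module.finrank R V = 2) (f : Module.End R V) :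
    f * f - LinearMap.trace R V f • f + LinearMap.det f • 1 = 0 := by
  have h1 := LinearMap.aeval_self_charpoly f
  rw [TOR.tor_charpoly_eq h2] at h1
  rw [map_add, map_sub, map_mul, map_pow, aeval_X, aeval_C, aeval_C, pow_two,
    Algebra.algebraMap_eq_smul_one, Algebra.algebraMap_eq_smul_one, smul_mul_assoc, one_mul] at h1
  exact h1

theorem ch_identity (hcheb : WeakCheb) (ρ : GaloisRepAdic O) (ε : GQ →* Oˣ)
    (hεc : ∀ n : ℕ, ∃ L : IntermediateField ℚ Qbar', FiniteDimensional ℚ L ∧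
      ∀ σ : GQ, FixesLevel L σ → (ε σ : O) - 1 ∈ maximalIdeal O ^ n)
    (B : Finset ℕ) (a : ℕ → O)
    (hε : ∀ ℓ : ℕ, ℓ.Prime → ℓ ∉ B → ∀ A : ValuationSubring Qbar', A.LiesOverPrime ℓ →
      ∀ σ : GQ, A.IsFrobeniusAt σ ℓ → (ε σ : O) = ℓ)
    (hρ : ∀ ℓ : ℕ, ℓ.Prime → ℓ ∉ B → ∀ A : ValuationSubring Qbar', A.LiesOverPrime ℓ →
      ∀ σ : GQ, A.IsFrobeniusAt σ ℓ →
        LinearMap.charpoly (ρ.ρ σ) = X ^ 2 - C (a ℓ) * X + C (ℓ : O))
    {T : Type} [AddCommGroup T] [Module O T] [NoZeroSMulDivisors O T] [Nontrivial T]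
    (hsep : ∀ x : T, (∀ n : ℕ, x ∈ (maximalIdeal O ^ n) • (⊤ : Submodule O T)) → x = 0)
    (r : GQ →* Module.End O T)
    (hsm : ∀ (x : T) (n : ℕ), ∃ L : IntermediateField ℚ Qbar', FiniteDimensional ℚ L ∧
      ∀ σ : GQ, FixesLevel L σ → r σ x - x ∈ (maximalIdeal O ^ n) • (⊤ : Submodule O T))
    (hr : ∀ ℓ : ℕ, ℓ.Prime → ℓ ∉ B → ∀ A : ValuationSubring Qbar', A.LiesOverPrime ℓ →
      ∀ σ : GQ, A.IsFrobeniusAt σ ℓ → r σ * r σ - a ℓ • r σ + (ℓ : O) • 1 = 0) (g : GQ) :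
    r g * r g - LinearMap.trace O ρ.V (ρ.ρ g) • r g + LinearMap.det (ρ.ρ g) • 1 = 0 := by
  classical
  have : NoZeroSMulDivisors O ρ.V := ⟨fun h => smul_eq_zero.1 h⟩
  have : Nontrivial ρ.V := Module.nontrivial_of_finrank_pos (R := O) (by rw [ρ.finrank_eq]; norm_num)
  have : NoZeroSMulDivisors O (T × ρ.V) := ⟨by
    intro c x h
    by_cases hc : c = 0
    · exact Or.inl hc
    · refine Or.inr (Prod.ext ?_ ?_)
      · exact (smul_eq_zero.1 (congrArg Prod.fst h)).resolve_left hc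
      · exact (smul_eq_zero.1 (congrArg Prod.snd h)).resolve_left hc⟩
  -- the relation of `ρ` itself
  have hCH : ∀ h : GQ, ρ.ρ h * ρ.ρ h - LinearMap.trace O ρ.V (ρ.ρ h) • ρ.ρ h +
      LinearMap.det (ρ.ρ h) • 1 = 0 := fun h => rel_ch_self ρ.finrank_eq _
  have hsepV : ∀ x : ρ.V, (∀ n : ℕ, x ∈ (maximalIdeal O ^ n) • (⊤ : Submodule O ρ.V)) → x = 0 := by
    intro x hx
    let b := Module.Free.chooseBasis O ρ.V
    apply b.repr.injective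
    rw [map_zero]
    ext i
    rw [Finsupp.zero_apply]
    apply TOR.tor_eq_of_forall_sub_mem_pow
    intro n
    rw [sub_zero]
    exact TOR.tor_repr_mem_of_mem_smul_top b _ (hx n) i
  set R := GR.Adic.prodRep r ρ.ρ with hR
  have hsep' : ∀ x : T × ρ.V,
      (∀ n : ℕ, x ∈ (maximalIdeal O ^ n) • (⊤ : Submodule O (T × ρ.V))) → x = 0 := by
    intro x hx
    refine Prod.ext ?_ ?_
    · exact hsep _ fun n => GR.Adic.map_mem_smul_top _ (LinearMap.fst O T ρ.V) (hx n)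
    · exact hsepV _ fun n => GR.Adic.map_mem_smul_top _ (LinearMap.snd O T ρ.V) (hx n)
  have hsm' : ∀ (x : T × ρ.V) (n : ℕ), ∃ L : IntermediateField ℚ Qbar',
      FiniteDimensional ℚ L ∧ ∀ σ : GQ, FixesLevel L σ →
        R σ x - x ∈ (maximalIdeal O ^ n) • (⊤ : Submodule O (T × ρ.V)) := by
    intro x n
    obtain ⟨L₁, hL₁, h₁⟩ := hsm x.1 n
    obtain ⟨L₂, hL₂, h₂⟩ := ρ.isAdicContinuous n
    refine ⟨L₁ ⊔ L₂, IntermediateField.finiteDimensional_sup L₁ L₂, fun σ hσ => ?_⟩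
    exact GR.Adic.prod_mem_smul_top _ (h₁ σ (GR.Adic.fixesLevel_of_le le_sup_left hσ))
      (h₂ σ (GR.Adic.fixesLevel_of_le le_sup_right hσ) x.2)
  obtain ⟨t, ht⟩ := GR.Adic.exists_trace_fn hsep' R ε hsm' hεc hcheb B a (by
    intro ℓ hℓ hℓB A hA σ hσ
    refine ⟨hε ℓ hℓ hℓB A hA σ hσ, GR.Adic.rel_prod _ _ _ _ _ (hr ℓ hℓ hℓB A hA σ hσ) ?_⟩
    obtain ⟨e1, e2⟩ := TOR.tor_trace_det_of_charpoly ρ.finrank_eq _ _ _ (hρ ℓ hℓ hℓB A hA σ hσ)
    have := hCH σ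
    rwa [e1, e2] at this)
  have hdet := det_eq_eps hcheb ρ ε hεc B a hε hρ g
  have h1 := GR.Adic.rel_fst _ _ _ _ _ (ht g)
  have h2 := GR.Adic.rel_snd _ _ _ _ _ (ht g)
  have h3 := hCH g
  rw [hdet] at h3
  have h4 : t g = LinearMap.trace O ρ.V (ρ.ρ g) := GR.Adic.trace_fn_unique ρ.ρ g _ _ _ h2 h3
  rw [hdet, ← h4]
  exact h1

end Fermat.Agent.CAR.W
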