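import Mathlib
import Fermat.Agent.GR.Adic.Tate
import Fermat.Agent.GR.Adic.Cyclo
import Fermat.Agent.GR.Adic.TraceRigid
import Fermat.Agent.TOR.AdicMaster
import Fermat.Agent.CAR.W.CH
import Fermat.Agent.CAR.W.Kolchin
import Fermat.Agent.CAR.W.Flat
import Fermat.Agent.CAR.W.Rel

/-!
# CAR / W / Main : [W-ALG], the adic / algebraic half of the chain for S36

`WDat p bad O a` : a `KSys` (Kummer classes `W`, lattice `L0`) with commuting Hecke and Galois actions,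
`p • κ (m+1) = κ m`, and an eigenvector `e ∈ O ⊗ L0` with eigenvalues `a ℓ`.

`not_unipotent` : if `ρ` is a two dimensional `p`-adic representation (`p ≠ 2`) with Frobenius characteristic
polynomials `X² - a ℓ X + ℓ`, absolutely irreducible residual representation, and `c ≠ 0` kills the
`I`-invariants of `W`, then `ρ` is NOT unipotent on `I`.
-/

set_option autoImplicit false

open IsLocalRing Polynomial TensorProduct

namespace Fermat.Agent.CAR.W

open Fermat.Agent.GR.Adic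

local notation "Qbar'" => AlgebraicClosure ℚ

/-- the input of [W-ALG]. -/
structure WDat (p : ℕ) (bad : Finset ℕ) (O : Type) [CommRing O] (a : ℕ → O) : Type 1 where
  K : TOR.KSys p (↑bad : Set ℕ)
  T_act : ∀ ℓ : ℕ, ℓ.Prime → ℓ ∉ bad → ∀ σ : GQ, Commute (K.T ℓ) (K.act σ)
  κ_succ : ∀ (m : ℕ) (x : K.L0), p • K.κ (m + 1) x = K.κ m x
  e : O ⊗[ℤ] K.L0
  e_ne : e ≠ 0
  e_eig : ∀ ℓ : ℕ, ℓ.Prime → ℓ ∉ bad → (K.T0 ℓ).baseChange O e = a ℓ • e

namespace WDat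

variable {p : ℕ} {bad : Finset ℕ} {O : Type} [CommRing O] {a : ℕ → O} (D : WDat p bad O a)

/-- the Galois action on `O ⊗ W`. -/
noncomputable def actO : GQ →* Module.End O (O ⊗[ℤ] D.K.W) where
  toFun σ := (D.K.act σ).baseChange O
  map_one' := by rw [map_one, LinearMap.baseChange_one]
  map_mul' σ τ := by rw [map_mul, LinearMap.baseChange_mul]

theorem actO_apply (σ : GQ) (z : O ⊗[ℤ] D.K.W) : D.actO σ z = (D.K.act σ).baseChange O z := rfl

/-- the eigenspace of the eigensystem `a` in `O ⊗ W`. -/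
def eig : Submodule O (O ⊗[ℤ] D.K.W) where
  carrier := {z | ∀ ℓ : ℕ, ℓ.Prime → ℓ ∉ bad → (D.K.T ℓ).baseChange O z = a ℓ • z}
  zero_mem' := fun ℓ _ _ => by rw [map_zero, smul_zero]
  add_mem' := fun {x y} hx hy ℓ h1 h2 => by rw [map_add, hx ℓ h1 h2, hy ℓ h1 h2, smul_add]
  smul_mem' := fun c x hx ℓ h1 h2 => by rw [map_smul, hx ℓ h1 h2, smul_comm]

theorem actO_mem_eig (σ : GQ) {z : O ⊗[ℤ] D.K.W} (hz : z ∈ D.eig) : D.actO σ z ∈ D.eig := by
  intro ℓ h1 h2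
  have hcomm : (D.K.T ℓ).baseChange O * (D.K.act σ).baseChange O =
      (D.K.act σ).baseChange O * (D.K.T ℓ).baseChange O := by
    rw [← LinearMap.baseChange_mul, ← LinearMap.baseChange_mul, (D.T_act ℓ h1 h2 σ).eq]
  have := LinearMap.congr_fun hcomm z
  rw [Module.End.mul_apply, Module.End.mul_apply, hz ℓ h1 h2, map_smul] at this
  exact this

theorem actO_smooth (z : O ⊗[ℤ] D.K.W) :
    ∃ L : IntermediateField ℚ Qbar', FiniteDimensional ℚ L ∧
      ∀ σ : GQ, FixesLevel L σ → D.actO σ z = z := by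
  induction z using TensorProduct.induction_on with
  | zero => exact ⟨⊥, inferInstance, fun σ _ => map_zero _⟩
  | tmul c x =>
    obtain ⟨L, hL, h⟩ := D.K.smooth x
    refine ⟨L, hL, fun σ hσ => ?_⟩
    rw [actO_apply, LinearMap.baseChange_tmul, h σ hσ]
  | add x y hx hy =>
    obtain ⟨L, hL, h⟩ := hx
    obtain ⟨L', hL', h'⟩ := hy
    refine ⟨L ⊔ L', IntermediateField.finiteDimensional_sup L L', fun σ hσ => ?_⟩
    rw [map_add, h σ fun u hu => hσ u ((le_sup_left : L ≤ L ⊔ L') hu),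
      h' σ fun u hu => hσ u ((le_sup_right : L' ≤ L ⊔ L') hu)]

/-- the Tate module of the eigenspace. -/
abbrev TT : Type := tateSub (p : O) D.eig

/-- the Galois action on the Tate module. -/
noncomputable def rho : GQ →* Module.End O D.TT where
  toFun σ := tateMap _ _ (D.actO σ) fun _ hz => D.actO_mem_eig σ hz
  map_one' := by
    ext w m
    simp
  map_mul' σ τ := by
    ext w m
    simp

@[simp]
theorem rho_apply (σ : GQ) (w : D.TT) (m : ℕ) :
    (D.rho σ w : ℕ → O ⊗[ℤ] D.K.W) m = D.actO σ ((w : ℕ → O ⊗[ℤ] D.K.W) m) := rfl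

theorem baseChange_κ_zero (e : O ⊗[ℤ] D.K.L0) : (D.K.κ 0).baseChange O e = 0 := by
  have : D.K.κ 0 = 0 := by
    ext x
    exact (D.K.κ_ker 0 x).mpr ⟨x, by simp⟩
  rw [this, LinearMap.baseChange_zero, LinearMap.zero_apply]

theorem baseChange_κ_succ (m : ℕ) (e : O ⊗[ℤ] D.K.L0) :
    (p : O) • (D.K.κ (m + 1)).baseChange O e = (D.K.κ m).baseChange O e := by
  have : D.K.κ m = (p : ℤ) • D.K.κ (m + 1) := by
    ext x
    rw [LinearMap.smul_apply, natCast_zsmul, D.κ_succ]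
  rw [this, LinearMap.baseChange_smul, LinearMap.smul_apply, natCast_zsmul,
    Nat.cast_smul_eq_nsmul]

theorem baseChange_κ_T (ℓ : ℕ) (h1 : ℓ.Prime) (h2 : ℓ ∉ bad) (m : ℕ) (e : O ⊗[ℤ] D.K.L0) :
    (D.K.T ℓ).baseChange O ((D.K.κ m).baseChange O e) =
      (D.K.κ m).baseChange O ((D.K.T0 ℓ).baseChange O e) := by
  have : (D.K.T ℓ) ∘ₗ (D.K.κ m) = (D.K.κ m) ∘ₗ (D.K.T0 ℓ) := by
    ext x
    exact (D.K.κ_T ℓ h1 (by simpa using h2) m x).symm
  have h := congrArg (fun f => LinearMap.baseChange O f e) this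
  simpa only [LinearMap.baseChange_comp, LinearMap.comp_apply] using h

/-- the element of the Tate module attached to the eigenvector. -/
noncomputable def w₀ : D.TT :=
  ⟨fun m => (D.K.κ m).baseChange O D.e, D.baseChange_κ_zero D.e,
    fun m => D.baseChange_κ_succ m D.e,
    fun m ℓ h1 h2 => by rw [D.baseChange_κ_T ℓ h1 h2, D.e_eig ℓ h1 h2, map_smul]⟩

theorem rho_smooth [IsDomain O] [IsDiscreteValuationRing O] (hpO : (p : O) ∈ maximalIdeal O)
    (x : D.TT) (n : ℕ) :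
    ∃ L : IntermediateField ℚ Qbar', FiniteDimensional ℚ L ∧ ∀ σ : GQ, FixesLevel L σ →
      D.rho σ x - x ∈ (maximalIdeal O ^ n) • (⊤ : Submodule O D.TT) := by
  obtain ⟨L, hL, h⟩ := D.actO_smooth ((x : ℕ → O ⊗[ℤ] D.K.W) n)
  refine ⟨L, hL, fun σ hσ => tateSub_mem_pow_smul_top hpO _ ?_⟩
  show D.actO σ ((x : ℕ → O ⊗[ℤ] D.K.W) n) - (x : ℕ → O ⊗[ℤ] D.K.W) n = 0
  rw [h σ hσ, sub_self]

theorem rho_frob (ℓ : ℕ) (h1 : ℓ.Prime) (h2 : ℓ ∉ bad) (A : ValuationSubring Qbar')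
    (hA : A.LiesOverPrime ℓ) (σ : GQ) (hσ : A.IsFrobeniusAt σ ℓ) :
    D.rho σ * D.rho σ - a ℓ • D.rho σ + (ℓ : O) • 1 = 0 := by
  ext w m
  have hrel := congrArg (Module.End.baseChangeHom ℤ O D.K.W)
    (D.K.frob ℓ h1 (by simpa using h2) A hA σ hσ)
  simp only [map_add, map_sub, map_mul, map_natCast, map_zero] at hrel
  have hrel' := LinearMap.congr_fun hrel ((w : ℕ → O ⊗[ℤ] D.K.W) m)
  have hX := D.actO_mem_eig σ (w.2.2.2 m) ℓ h1 h2
  show D.actO σ (D.actO σ ((w : ℕ → O ⊗[ℤ] D.K.W) m)) -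
    a ℓ • D.actO σ ((w : ℕ → O ⊗[ℤ] D.K.W) m) + (ℓ : O) • (w : ℕ → O ⊗[ℤ] D.K.W) m = 0
  rw [← hX, Nat.cast_smul_eq_nsmul]
  simp only [LinearMap.add_apply, LinearMap.sub_apply, Module.End.mul_apply,
    Module.End.natCast_apply, LinearMap.zero_apply] at hrel'
  exact hrel'

theorem w₀_ne_zero [IsDomain O] [IsDiscreteValuationRing O] [CharZero O]
    (hpO : (p : O) ∈ maximalIdeal O) : D.w₀ ≠ 0 := by
  intro hw
  apply D.e_ne
  apply eq_zero_of_forall_exists_pow_smul hpO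
  intro m
  have hm : (D.K.κ m).baseChange O D.e = 0 := congrFun (congrArg Subtype.val hw) m
  obtain ⟨e', he'⟩ := exists_eq_smul_of_baseChange_eq_zero (D.K.κ m) (p ^ m) (D.K.κ_ker m) D.e hm
  exact ⟨e', by rw [he']; push_cast; rfl⟩

end WDat

/-- **[W-ALG]**. -/
theorem not_unipotent (hcheb : WeakCheb) {p : ℕ} [Fact p.Prime] (hp2 : p ≠ 2) {bad : Finset ℕ}
    (hpbad : p ∈ bad)
    {O : Type} [CommRing O] [IsDomain O] [IsDiscreteValuationRing O]
    [IsAdicComplete (maximalIdeal O) O] [CharZero O] (hpO : (p : O) ∈ maximalIdeal O)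
    {a : ℕ → O} (D : WDat p bad O a) (ρ : GaloisRepAdic O)
    (hρ : ∀ ℓ : ℕ, ℓ.Prime → ℓ ∉ bad → ∀ A : ValuationSubring Qbar', A.LiesOverPrime ℓ →
      ∀ σ : GQ, A.IsFrobeniusAt σ ℓ →
        LinearMap.charpoly (ρ.ρ σ) = X ^ 2 - C (a ℓ) * X + C (ℓ : O))
    (habs : ρ.residual.IsAbsolutelyIrreducible)
    (I : Subgroup GQ) (c : ℤ) (hc : c ≠ 0)
    (hC : ∀ x : D.K.W, (∀ τ ∈ I, D.K.act τ x = x) → c • x = 0) :
    ¬ ∀ τ ∈ I, LinearMap.charpoly (ρ.ρ τ) = (X - 1) ^ 2 := by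
  intro hI
  have hp0 : (p : O) ≠ 0 := Nat.cast_ne_zero.mpr (Fact.out : p.Prime).ne_zero
  have hTF : NoZeroSMulDivisors O D.TT := tateSub_noZeroSMulDivisors (X := D.eig) hpO
  have hNT : Nontrivial D.TT := ⟨D.w₀, 0, D.w₀_ne_zero hpO⟩
  obtain ⟨ε, hεF, -, hεc, -⟩ := exists_cyclo p O hpO
  have hne : ∀ ℓ : ℕ, ℓ ∉ bad → ℓ ≠ p := fun ℓ h h' => h (h' ▸ hpbad)
  -- the Cayley--Hamilton identity
  have hsep : ∀ x : D.TT, (∀ n : ℕ, x ∈ (maximalIdeal O ^ n) • (⊤ : Submodule O D.TT)) → x = 0 :=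
    tateSub_sep (X := D.eig) hp0
  have hCH : ∀ g : GQ, D.rho g * D.rho g - LinearMap.trace O ρ.V (ρ.ρ g) • D.rho g
      + LinearMap.det (ρ.ρ g) • 1 = 0 :=
    ch_identity (T := D.TT) hcheb ρ ε hεc bad a
      (fun ℓ h1 h2 A hA σ hσ => hεF ℓ h1 (hne ℓ h2) A hA σ hσ) hρ
      hsep D.rho (D.rho_smooth hpO) D.rho_frob
  have hspan := span_range_eq_top_of_residual_absIrr ρ habs
  have h2inv : IsUnit (2 : O) := by
    by_contra h
    have h2m : (2 : O) ∈ maximalIdeal O := (mem_maximalIdeal _).mpr h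
    obtain ⟨k, hk⟩ := (Fact.out : p.Prime).eq_two_or_odd'.resolve_left hp2
    have : (1 : O) ∈ maximalIdeal O := by
      have e : (1 : O) = (p : O) - 2 * (k : O) := by rw [hk]; push_cast; ring
      rw [e]
      exact Ideal.sub_mem _ hpO (Ideal.mul_mem_right _ _ h2m)
    exact (Ideal.ne_top_iff_one _).mp (Ideal.IsPrime.ne_top inferInstance) this
  -- `(τ - 1)(τ' - 1) = 0` on the Tate module
  have hkill : ∀ τ ∈ I, ∀ τ' ∈ I, (D.rho τ - 1) * (D.rho τ' - 1) = 0 := by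
    intro τ hτ τ' hτ'
    apply ch_eq_zero ρ.finrank_eq hCH hspan h2inv
    have h1 : ((ρ.ρ τ - 1, D.rho τ - 1) : Module.End O ρ.V × Module.End O D.TT)
        ∈ chP ρ.ρ D.rho := sub_mem (chP_gen _ _ τ) (chP_one _ _)
    have h2 : ((ρ.ρ τ' - 1, D.rho τ' - 1) : Module.End O ρ.V × Module.End O D.TT)
        ∈ chP ρ.ρ D.rho := sub_mem (chP_gen _ _ τ') (chP_one _ _)
    have h3 := chP_mul _ _ h1 h2
    rwa [Prod.mk_mul_mk, unipotent_mul_eq_zero ρ.finrank_eq ρ.ρ I hI hτ hτ'] at h3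
  -- invariants of the Tate module vanish
  have hc0 : (c : O) ≠ 0 := Int.cast_ne_zero.mpr hc
  have hinv : ∀ v : D.TT, (∀ τ ∈ I, D.rho τ v = v) → v = 0 := by
    intro v hv
    have h1 : (c : O) • v = 0 := by
      apply Subtype.ext
      funext m
      show (c : O) • (v : ℕ → O ⊗[ℤ] D.K.W) m = 0
      rw [Int.cast_smul_eq_zsmul]
      apply smul_eq_zero_of_fixed D.K.act D.K.smooth I c hC
      intro τ hτ
      exact congrFun (congrArg Subtype.val (hv τ hτ)) m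
    exact (smul_eq_zero.mp h1).resolve_left hc0
  apply D.w₀_ne_zero hpO
  apply hinv
  intro τ' hτ'
  rw [← sub_eq_zero]
  have : (D.rho τ' - 1) D.w₀ = 0 := by
    apply hinv
    intro τ hτ
    rw [← sub_eq_zero]
    exact LinearMap.congr_fun (hkill τ hτ τ' hτ') D.w₀
  exact this

end Fermat.Agent.CAR.W
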